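import Fermat.Agent.PhiGamma.Descent
import Mathlib.CategoryTheory.Equivalence
import Mathlib.CategoryTheory.Opposites
import Mathlib.Topology.LocallyConstant.Basic

/-!
# Representations and `(φ, Γ)`-modules

For a Galois datum the finite representations over `ZMod p` with open stabilisers are
anti-equivalent to the étale `φ`-modules over the base with a commuting continuous semilinear
action: `V` goes to the equivariant maps `V → L` and `D` to the maps `D → L` commuting with `φ`.
-/

set_option autoImplicit false
set_option linter.unusedSectionVars false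

noncomputable section

open Module Finset CategoryTheory Opposite

namespace FA.PhiGamma

universe u

variable (p : ℕ) [hp : Fact p.Prime] (G : Type u) [Group G] [TopologicalSpace G]

/-- A finite representation over `ZMod p` with open stabilisers. -/
structure FinRep where
  carrier : Type u
  [addCommGroup : AddCommGroup carrier]
  [module : Module (ZMod p) carrier]
  [finite : Finite carrier]
  rho : Representation (ZMod p) G carrier
  isOpen_stab : ∀ v, IsOpen {g : G | rho g v = v}

attribute [instance] FinRep.addCommGroup FinRep.module FinRep.finite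

variable (K L : Type u) [Field K] [Field L] [Algebra K L] [Algebra (ZMod p) L] [CharP L p]
  [MulSemiringAction G K] [MulSemiringAction G L] [TopologicalSpace L]

/-- An étale `φ`-module over `K` with a commuting semilinear action of `G` which is trivial on the
elements fixing `K` and has continuous coordinates in `L`. -/
structure PhiGammaModule where
  carrier : Type u
  [addCommGroup : AddCommGroup carrier]
  [module : Module K carrier]
  [finiteDimensional : FiniteDimensional K carrier]
  phi : carrier →+ carrier
  isEtale : IsEtalePhi p K phi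
  act : G → carrier →+ carrier
  act_one : ∀ x, act 1 x = x
  act_mul : ∀ g h x, act (g * h) x = act g (act h x)
  act_smul : ∀ g (a : K) x, act g (a • x) = (g • a) • act g x
  phi_act : ∀ g x, phi (act g x) = act g (phi x)
  act_eq_self : ∀ g, (∀ a : K, g • a = a) → ∀ x, act g x = x
  continuous_coord : ∀ (ℓ : carrier →ₗ[K] K) x, Continuous fun g => algebraMap K L (ℓ (act g x))

attribute [instance] PhiGammaModule.addCommGroup PhiGammaModule.module
  PhiGammaModule.finiteDimensional

variable {p G K L}

/-- A morphism of representations. -/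
@[ext]
structure FinRepHom (V W : FinRep p G) where
  toLin : V.carrier →ₗ[ZMod p] W.carrier
  comm : ∀ g v, toLin (V.rho g v) = W.rho g (toLin v)

instance : Category (FinRep p G) where
  Hom V W := FinRepHom V W
  id V := ⟨LinearMap.id, fun _ _ => rfl⟩
  comp f g := ⟨g.toLin.comp f.toLin, fun a v => by
    rw [LinearMap.comp_apply, LinearMap.comp_apply, f.comm, g.comm]⟩

/-- A morphism of modules. -/
@[ext]
structure PhiGammaHom (D D' : PhiGammaModule p G K L) where
  toLin : D.carrier →ₗ[K] D'.carrier
  comm_phi : ∀ x, toLin (D.phi x) = D'.phi (toLin x)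
  comm_act : ∀ g x, toLin (D.act g x) = D'.act g (toLin x)

instance : Category (PhiGammaModule p G K L) where
  Hom D D' := PhiGammaHom D D'
  id D := ⟨LinearMap.id, fun _ => rfl, fun _ _ => rfl⟩
  comp f g := ⟨g.toLin.comp f.toLin, fun x => by
      rw [LinearMap.comp_apply, LinearMap.comp_apply, f.comm_phi, g.comm_phi],
    fun a x => by rw [LinearMap.comp_apply, LinearMap.comp_apply, f.comm_act, g.comm_act]⟩

/-- An isomorphism from an equivariant linear equivalence. -/
def finRepIso {V W : FinRep p G} (e : V.carrier ≃ₗ[ZMod p] W.carrier)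
    (h : ∀ g v, e (V.rho g v) = W.rho g (e v)) : V ≅ W where
  hom := ⟨e.toLinearMap, h⟩
  inv := ⟨e.symm.toLinearMap, fun g w => e.injective (by simp [h])⟩
  hom_inv_id := FinRepHom.ext (LinearMap.ext fun v => e.symm_apply_apply v)
  inv_hom_id := FinRepHom.ext (LinearMap.ext fun v => e.apply_symm_apply v)

/-- An isomorphism from a compatible linear equivalence. -/
def phiGammaIso {D D' : PhiGammaModule p G K L} (e : D.carrier ≃ₗ[K] D'.carrier)
    (h : ∀ x, e (D.phi x) = D'.phi (e x)) (h' : ∀ g x, e (D.act g x) = D'.act g (e x)) :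
    D ≅ D' where
  hom := ⟨e.toLinearMap, h, h'⟩
  inv := ⟨e.symm.toLinearMap, fun x => e.injective (by simp [h]),
    fun g x => e.injective (by simp [h'])⟩
  hom_inv_id := PhiGammaHom.ext (LinearMap.ext fun v => e.symm_apply_apply v)
  inv_hom_id := PhiGammaHom.ext (LinearMap.ext fun v => e.apply_symm_apply v)

variable [IsTopologicalGroup G] [GaloisDatum G K L] [IsSepClosed L] [Algebra.IsSeparable K L]
  [IsTopologicalRing L] [T2Space L] [ContinuousSMul G L]

theorem twistMap_mem {V : Type*} [AddCommGroup V] [Module (ZMod p) V] [Finite V]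
    {ρ : Representation (ZMod p) G V} {f : V →ₗ[ZMod p] L} (hf : f ∈ equivariant K L ρ) (g : G) :
    twistMap ρ g f ∈ equivariant K L ρ := fun h hh v => by
  have h1 := hf (g⁻¹ * h * g) (fun a => by rw [mul_smul, mul_smul, hh, inv_smul_smul]) (ρ g⁻¹ v)
  rw [map_mul, map_mul, Module.End.mul_apply, Module.End.mul_apply, rep_apply_inv] at h1
  rw [twistMap_apply, twistMap_apply, h1, ← mul_smul, ← mul_smul]
  congr 1
  group

theorem continuous_rep_apply {V : Type*} [AddCommGroup V] [Module (ZMod p) V]
    {ρ : Representation (ZMod p) G V} (hρ : ∀ v, IsOpen {g : G | ρ g v = v})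
    (f : V → L) (v : V) : Continuous fun g : G => f (ρ g v) := by
  refine IsLocallyConstant.continuous ((IsLocallyConstant.iff_exists_open _).2 fun g₀ => ?_)
  refine ⟨(fun g => g₀⁻¹ * g) ⁻¹' {g | ρ g v = v}, (hρ v).preimage (continuous_const.mul
    continuous_id), by simp, fun g hg => ?_⟩
  rw [Set.mem_preimage, Set.mem_ofPred_eq] at hg
  have := congrArg (fun w => f (ρ g₀ w)) hg
  rwa [← Module.End.mul_apply, ← map_mul, mul_inv_cancel_left] at this

/-- The action on the equivariant maps. -/
def twistEquivariant {V : Type*} [AddCommGroup V] [Module (ZMod p) V] [Finite V]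
    (ρ : Representation (ZMod p) G V) (g : G) : equivariant K L ρ →+ equivariant K L ρ where
  toFun f := ⟨twistMap ρ g (f : V →ₗ[ZMod p] L), twistMap_mem f.2 g⟩
  map_zero' := Subtype.ext (LinearMap.ext fun _ => smul_zero g)
  map_add' _ _ := Subtype.ext (LinearMap.ext fun _ => smul_add g _ _)

theorem twistEquivariant_apply {V : Type*} [AddCommGroup V] [Module (ZMod p) V] [Finite V]
    (ρ : Representation (ZMod p) G V) (g : G) (f : equivariant K L ρ) (v : V) :
    (twistEquivariant ρ g f : V →ₗ[ZMod p] L) v = g • (f : V →ₗ[ZMod p] L) (ρ g⁻¹ v) := rfl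

variable (K L) in
/-- The module of a representation. -/
def moduleOfRep (V : FinRep p G) : PhiGammaModule p G K L where
  carrier := equivariant K L V.rho
  finiteDimensional := (finrank_equivariant V.isOpen_stab).2
  phi := powEquivariant K L V.rho
  isEtale := isEtalePhi_powEquivariant V.isOpen_stab
  act := twistEquivariant V.rho
  act_one f := Subtype.ext (LinearMap.ext fun v => by simp [twistEquivariant_apply])
  act_mul g h f := Subtype.ext (LinearMap.ext fun v => by
    rw [twistEquivariant_apply, twistEquivariant_apply, twistEquivariant_apply, mul_inv_rev,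
      map_mul, Module.End.mul_apply, mul_smul])
  act_smul g a f := Subtype.ext (LinearMap.ext fun v => by
    change g • (a • (f : V.carrier →ₗ[ZMod p] L) (V.rho g⁻¹ v)) =
      (g • a) • g • (f : V.carrier →ₗ[ZMod p] L) (V.rho g⁻¹ v)
    rw [Algebra.smul_def, smul_mul', GaloisDatum.smul_algebraMap, Algebra.smul_def])
  phi_act g f := Subtype.ext (LinearMap.ext fun v => (smul_pow' g _ p).symm)
  act_eq_self g hg f := Subtype.ext (twistMap_eq_of_mem f.2 hg)
  continuous_coord ℓ f := by
    obtain ⟨b, hb, hiff⟩ := exists_equivariant_basis (K := K) (L := L) V.isOpen_stab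
    set Λ : (V.carrier →ₗ[ZMod p] L) →ₗ[L] L :=
      b.constr L fun i => algebraMap K L (ℓ ⟨b i, hb i⟩)
    have hΛ : ∀ w : equivariant K L V.rho, algebraMap K L (ℓ w) = Λ w := by
      rintro ⟨w, hw⟩
      obtain ⟨c, rfl⟩ := (hiff w).1 hw
      have e : (⟨_, hw⟩ : equivariant K L V.rho) = ∑ i, c i • ⟨b i, hb i⟩ :=
        Subtype.ext (by simp [algebraMap_smul])
      rw [e, map_sum, map_sum, Submodule.coe_sum, map_sum]
      refine sum_congr rfl fun i _ => ?_
      rw [map_smul, Submodule.coe_smul, smul_eq_mul, map_mul, ← algebraMap_smul L (c i) (b i),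
        map_smul, smul_eq_mul, Basis.constr_basis]
    have : FiniteDimensional (ZMod p) V.carrier := Module.Finite.of_finite
    set v := finBasis (ZMod p) V.carrier
    have hw : ∀ w : V.carrier →ₗ[ZMod p] L, Λ w =
        ∑ j, w (v j) * Λ ((Algebra.linearMap (ZMod p) L).comp (v.coord j)) := fun w => by
      have e : w = ∑ j, w (v j) • (Algebra.linearMap (ZMod p) L).comp (v.coord j) := by
        refine v.ext fun i => ?_
        simp [LinearMap.sum_apply, Finsupp.single_apply]
      conv_lhs => rw [e, map_sum]
      simp only [map_smul, smul_eq_mul]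
    have e : (fun g => algebraMap K L (ℓ (twistEquivariant V.rho g f))) = fun g => ∑ j,
        g • (f : V.carrier →ₗ[ZMod p] L) (V.rho g⁻¹ (v j)) *
          Λ ((Algebra.linearMap (ZMod p) L).comp (v.coord j)) := funext fun g => by
      rw [hΛ, hw]
      rfl
    rw [e]
    refine continuous_finsetSum _ fun j _ => Continuous.mul ?_ continuous_const
    exact continuous_id.smul
      ((continuous_rep_apply V.isOpen_stab (f : V.carrier →ₗ[ZMod p] L) (v j)).comp continuous_inv)

variable (D : PhiGammaModule p G K L)

theorem act_inv_cancel (g : G) (x : D.carrier) : D.act g⁻¹ (D.act g x) = x := by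
  rw [← D.act_mul, inv_mul_cancel, D.act_one]

/-- The conjugate of a map by an element. -/
def conjSol (g : G) (f : D.carrier →ₗ[K] L) : D.carrier →ₗ[K] L where
  toFun x := g • f (D.act g⁻¹ x)
  map_add' x y := by rw [map_add, map_add, smul_add]
  map_smul' a x := by
    rw [D.act_smul, map_smul, Algebra.smul_def, smul_mul', GaloisDatum.smul_algebraMap,
      smul_inv_smul, RingHom.id_apply, Algebra.smul_def]

theorem conjSol_apply (g : G) (f : D.carrier →ₗ[K] L) (x : D.carrier) :
    conjSol D g f x = g • f (D.act g⁻¹ x) := rfl

theorem conjSol_mem (g : G) {f : D.carrier →ₗ[K] L} (hf : f ∈ solutions K L D.phi) :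
    conjSol D g f ∈ solutions K L D.phi := fun x => by
  rw [conjSol_apply, conjSol_apply, ← D.phi_act, hf, smul_pow']

/-- The representation on the solutions. -/
def solRep : Representation (ZMod p) G (solutions K L D.phi) where
  toFun g :=
    { toFun := fun f => ⟨conjSol D g (f : D.carrier →ₗ[K] L), conjSol_mem D g f.2⟩
      map_add' := fun f₁ f₂ => Subtype.ext (LinearMap.ext fun x => smul_add g _ _)
      map_smul' := fun c f => Subtype.ext (LinearMap.ext fun x => smul_zmod_smul g c _) }
  map_one' := LinearMap.ext fun f => Subtype.ext (LinearMap.ext fun x => by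
    change (1 : G) • (f : D.carrier →ₗ[K] L) (D.act (1 : G)⁻¹ x) = _
    rw [inv_one, D.act_one, one_smul]
    rfl)
  map_mul' g h := LinearMap.ext fun f => Subtype.ext (LinearMap.ext fun x => by
    change (g * h) • (f : D.carrier →ₗ[K] L) (D.act (g * h)⁻¹ x) =
      g • h • (f : D.carrier →ₗ[K] L) (D.act h⁻¹ (D.act g⁻¹ x))
    rw [mul_inv_rev, D.act_mul, mul_smul])

theorem solRep_apply (g : G) (f : solutions K L D.phi) (x : D.carrier) :
    (solRep D g f : D.carrier →ₗ[K] L) x = g • (f : D.carrier →ₗ[K] L) (D.act g⁻¹ x) := rfl

theorem isOpen_solRep (f : solutions K L D.phi) : IsOpen {g : G | solRep D g f = f} := by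
  have hclosed : IsClosed (repStab (solRep D) f : Set G) := by
    have e : (repStab (solRep D) f : Set G) = ⋂ x : D.carrier,
        {g : G | g • (f : D.carrier →ₗ[K] L) (D.act g⁻¹ x) = (f : D.carrier →ₗ[K] L) x} := by
      ext g
      simp only [Set.mem_iInter, Set.mem_ofPred_eq, SetLike.mem_coe]
      exact ⟨fun h x => DFunLike.congr_fun (congrArg Subtype.val h) x,
        fun h => Subtype.ext (LinearMap.ext h)⟩
    rw [e]
    refine isClosed_iInter fun x => isClosed_eq (continuous_id.smul ?_) continuous_const
    set b := finBasis K D.carrier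
    have e2 : ∀ y, (f : D.carrier →ₗ[K] L) y =
        ∑ i, algebraMap K L (b.coord i y) * (f : D.carrier →ₗ[K] L) (b i) := fun y => by
      conv_lhs => rw [← b.sum_repr y, map_sum]
      simp only [map_smul, Algebra.smul_def, Basis.coord_apply]
    rw [show (fun g : G => (f : D.carrier →ₗ[K] L) (D.act g⁻¹ x)) = _ from
      funext fun g => e2 (D.act g⁻¹ x)]
    exact continuous_finsetSum _ fun i _ =>
      ((D.continuous_coord (b.coord i) x).comp continuous_inv).mul continuous_const
  have := finite_solutions (L := L) D.isEtale
  let π : G →* Equiv.Perm (solutions K L D.phi) :=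
    { toFun := fun g => ⟨solRep D g, solRep D g⁻¹, rep_inv_apply _ g, rep_apply_inv _ g⟩
      map_one' := Equiv.ext fun x => by
        change solRep D 1 x = x
        rw [map_one, Module.End.one_apply]
      map_mul' := fun g h => Equiv.ext fun x => by
        change solRep D (g * h) x = solRep D g (solRep D h x)
        rw [map_mul, Module.End.mul_apply] }
  have hle : π.ker ≤ repStab (solRep D) f := fun g hg => DFunLike.congr_fun hg f
  have : (repStab (solRep D) f).FiniteIndex := Subgroup.finiteIndex_of_le hle
  exact (repStab (solRep D) f).isOpen_of_isClosed_of_finiteIndex hclosed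

/-- The representation of a module. -/
def repOfModule : FinRep p G where
  carrier := solutions K L D.phi
  finite := finite_solutions D.isEtale
  rho := solRep D
  isOpen_stab := isOpen_solRep D

/-- Composing with a morphism. -/
def precompEquivariant {V W : FinRep p G} (f : FinRepHom V W) :
    equivariant K L W.rho →ₗ[K] equivariant K L V.rho where
  toFun w := ⟨(w : W.carrier →ₗ[ZMod p] L).comp f.toLin, fun g hg x => by
    rw [LinearMap.comp_apply, LinearMap.comp_apply, f.comm, w.2 g hg]⟩
  map_add' _ _ := rfl
  map_smul' _ _ := rfl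

/-- Composing with a morphism of modules. -/
def precompSolutions {D D' : PhiGammaModule p G K L} (f : PhiGammaHom D D') :
    solutions K L D'.phi →ₗ[ZMod p] solutions K L D.phi where
  toFun w := ⟨(w : D'.carrier →ₗ[K] L).comp f.toLin, fun x => by
    rw [LinearMap.comp_apply, LinearMap.comp_apply, f.comm_phi, w.2]⟩
  map_add' _ _ := rfl
  map_smul' _ _ := rfl

variable (K L) in
/-- The map of modules of a morphism. -/
def moduleMap {V W : FinRep p G} (f : FinRepHom V W) :
    PhiGammaHom (moduleOfRep K L W) (moduleOfRep K L V) where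
  toLin := precompEquivariant f
  comm_phi _ := rfl
  comm_act g w := by
    refine Subtype.ext (LinearMap.ext fun x => ?_)
    obtain ⟨w, hw⟩ := w
    change g • w (W.rho g⁻¹ (f.toLin x)) = g • w (f.toLin (V.rho g⁻¹ x))
    rw [f.comm]

/-- The map of representations of a morphism. -/
def repMap {D D' : PhiGammaModule p G K L} (f : PhiGammaHom D D') :
    FinRepHom (repOfModule D') (repOfModule D) where
  toLin := precompSolutions f
  comm g w := by
    refine Subtype.ext (LinearMap.ext fun x => ?_)
    obtain ⟨w, hw⟩ := w
    change g • w (D'.act g⁻¹ (f.toLin x)) = g • w (f.toLin (D.act g⁻¹ x))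
    rw [f.comm_act]

variable (p G K L)

/-- `V ↦ Hom_H(V, L)`. -/
def toPhiGamma : (FinRep p G)ᵒᵖ ⥤ PhiGammaModule p G K L where
  obj V := moduleOfRep K L V.unop
  map f := moduleMap K L f.unop
  map_id _ := PhiGammaHom.ext (LinearMap.ext fun _ => rfl)
  map_comp _ _ := PhiGammaHom.ext (LinearMap.ext fun _ => rfl)

/-- `D ↦ Hom_φ(D, L)`. -/
def toFinRep : PhiGammaModule p G K L ⥤ (FinRep p G)ᵒᵖ where
  obj D := op (repOfModule D)
  map {D D'} f := Quiver.Hom.op (X := repOfModule D') (Y := repOfModule D) (repMap f)
  map_id _ := Quiver.Hom.unop_inj (FinRepHom.ext (LinearMap.ext fun _ => rfl))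
  map_comp _ _ := Quiver.Hom.unop_inj (FinRepHom.ext (LinearMap.ext fun _ => rfl))

variable {p G K L}

/-- The evaluation at a vector. -/
def evalVec (V : FinRep p G) :
    V.carrier →ₗ[ZMod p] solutions K L (powEquivariant K L V.rho) where
  toFun v := ⟨{ toFun := fun f => (f : V.carrier →ₗ[ZMod p] L) v
                map_add' := fun _ _ => rfl
                map_smul' := fun _ _ => rfl }, fun f => powEquivariant_apply f v⟩
  map_add' v w := Subtype.ext (LinearMap.ext fun f => map_add (f : V.carrier →ₗ[ZMod p] L) v w)
  map_smul' c v := Subtype.ext (LinearMap.ext fun f => map_smul (f : V.carrier →ₗ[ZMod p] L) c v)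

theorem bijective_evalVec (V : FinRep p G) :
    Function.Bijective (evalVec (K := K) (L := L) V) := by
  have : FiniteDimensional (ZMod p) V.carrier := Module.Finite.of_finite
  obtain ⟨hfr, hfin⟩ := finrank_equivariant (K := K) (L := L) V.isOpen_stab
  have hinj : Function.Injective (evalVec (K := K) (L := L) V) := by
    refine (injective_iff_map_eq_zero _).2 fun v hv => ?_
    refine (finBasis (ZMod p) V.carrier).forall_coord_eq_zero_iff.1 fun j => ?_
    have h0 : ∀ w ∈ Submodule.span L
        (equivariant K L V.rho : Set (V.carrier →ₗ[ZMod p] L)), w v = 0 := fun w hw => by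
      induction hw using Submodule.span_induction with
      | mem f hf => exact DFunLike.congr_fun (congrArg Subtype.val hv) ⟨f, hf⟩
      | zero => rfl
      | add f g _ _ hf hg => rw [LinearMap.add_apply, hf, hg, add_zero]
      | smul a f _ hf => rw [LinearMap.smul_apply, hf, smul_zero]
    have h1 := h0 ((Algebra.linearMap (ZMod p) L).comp ((finBasis (ZMod p) V.carrier).coord j))
      (by rw [span_equivariant V.isOpen_stab]; exact Submodule.mem_top)
    exact (algebraMap (ZMod p) L).injective (h1.trans (map_zero _).symm)
  have := finite_solutions (L := L) (isEtalePhi_powEquivariant (K := K) (L := L) V.isOpen_stab)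
  have : FiniteDimensional (ZMod p) (solutions K L (powEquivariant K L V.rho)) :=
    Module.Finite.of_finite
  refine ⟨hinj, (LinearMap.injective_iff_surjective_of_finrank_eq_finrank ?_).1 hinj⟩
  rw [finrank_solutions (isEtalePhi_powEquivariant V.isOpen_stab), hfr]

/-- The evaluation at an element of a module. -/
def evalElt : D.carrier →ₗ[K] equivariant K L (solRep D) where
  toFun x := ⟨{ toFun := fun f => (f : D.carrier →ₗ[K] L) x
                map_add' := fun _ _ => rfl
                map_smul' := fun _ _ => rfl }, fun g hg f => by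
      change g • (f : D.carrier →ₗ[K] L) (D.act g⁻¹ x) = g • (f : D.carrier →ₗ[K] L) x
      rw [D.act_eq_self g⁻¹ (fun a => by rw [inv_smul_eq_iff, hg])]⟩
  map_add' x y := Subtype.ext (LinearMap.ext fun f => map_add (f : D.carrier →ₗ[K] L) x y)
  map_smul' a x := Subtype.ext (LinearMap.ext fun f => map_smul (f : D.carrier →ₗ[K] L) a x)

theorem bijective_evalElt : Function.Bijective (evalElt D) := by
  have := finite_solutions (L := L) D.isEtale
  have : FiniteDimensional (ZMod p) (solutions K L D.phi) := Module.Finite.of_finite
  obtain ⟨hfr, hfin⟩ := finrank_equivariant (K := K) (L := L) (isOpen_solRep D)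
  have hinj : Function.Injective (evalElt D) := (injective_iff_map_eq_zero _).2 fun x hx =>
    eq_zero_of_solutions (L := L) D.isEtale fun f hf =>
      DFunLike.congr_fun (congrArg Subtype.val hx) ⟨f, hf⟩
  have h : finrank K D.carrier = finrank K (equivariant K L (solRep D)) := by
    rw [hfr, finrank_solutions D.isEtale]
  exact ⟨hinj, (LinearMap.injective_iff_surjective_of_finrank_eq_finrank (K := K)
    (V := D.carrier) (V₂ := equivariant K L (solRep D)) h (f := evalElt D)).1 hinj⟩

/-- A representation is the solutions of its module. -/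
def repIso (V : FinRep p G) : V ≅ repOfModule (moduleOfRep K L V) :=
  finRepIso (LinearEquiv.ofBijective (evalVec V) (bijective_evalVec V)) fun g v =>
    Subtype.ext (LinearMap.ext fun f => by
      obtain ⟨f, hf⟩ := f
      change f (V.rho g v) = g • (g⁻¹ • f (V.rho g⁻¹⁻¹ v))
      rw [inv_inv, smul_inv_smul])

/-- A module is the equivariant maps of its solutions. -/
def moduleIso : D ≅ moduleOfRep K L (repOfModule D) :=
  phiGammaIso (LinearEquiv.ofBijective (evalElt D) (bijective_evalElt D))
    (fun x => Subtype.ext (LinearMap.ext fun f => f.2 x))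
    fun g x => Subtype.ext (LinearMap.ext fun f => by
      obtain ⟨f, hf⟩ := f
      change f (D.act g x) = g • (g⁻¹ • f (D.act g⁻¹⁻¹ x))
      rw [inv_inv, smul_inv_smul])

variable (p G K L) in
/-- **Representations are anti-equivalent to étale `φ`-modules with action.** -/
def phiGammaEquivalence : (FinRep p G)ᵒᵖ ≌ PhiGammaModule p G K L :=
  CategoryTheory.Equivalence.mk (toPhiGamma p G K L) (toFinRep p G K L)
    (NatIso.ofComponents (fun V => (repIso (K := K) (L := L) V.unop).op)
      (fun _ => Quiver.Hom.unop_inj (FinRepHom.ext (LinearMap.ext fun _ => rfl)))).symm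
    (NatIso.ofComponents (fun D => moduleIso D)
      (fun _ => PhiGammaHom.ext (LinearMap.ext fun _ => rfl))).symm

/-- The rank of the module is the dimension of the representation. -/
theorem finrank_moduleOfRep (V : FinRep p G) :
    finrank K (moduleOfRep K L V).carrier = finrank (ZMod p) V.carrier :=
  (finrank_equivariant V.isOpen_stab).1

end FA.PhiGamma
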