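import Fermat.Agent.PhiGamma.EtaleModule
import Mathlib.FieldTheory.IsSepClosed
import Mathlib.FieldTheory.Finite.Basic
import Mathlib.FieldTheory.Galois.Infinite
import Mathlib.FieldTheory.Fixed
import Mathlib.Topology.Algebra.MulAction
import Mathlib.Topology.Algebra.Group.Basic

/-!
# Galois data

A group acts on a separably closed field `L` and on a subfield `K` over which `L` is separable; the
elements fixing `K` give all automorphisms over `K`, and open subgroups see only finitely many
elements of `L`.
-/

set_option autoImplicit false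
set_option linter.unusedSectionVars false

noncomputable section

open Polynomial Module Finset

namespace FA.PhiGamma

universe u

/-- The compatibility of a group action with a Galois extension. -/
class GaloisDatum (G K L : Type*) [Group G] [TopologicalSpace G] [Field K] [Field L]
    [Algebra K L] [MulSemiringAction G K] [MulSemiringAction G L] : Prop where
  smul_algebraMap : ∀ (g : G) (a : K), g • algebraMap K L a = algebraMap K L (g • a)
  exists_lift : ∀ τ : L ≃ₐ[K] L, ∃ g : G, (∀ a : K, g • a = a) ∧ ∀ x : L, g • x = τ x
  exists_finite : ∀ U : Subgroup G, IsOpen (U : Set G) →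
    ∃ S : Finset L, ∀ g : G, (∀ a : K, g • a = a) → (∀ x ∈ S, g • x = x) → g ∈ U

variable {p : ℕ} [hp : Fact p.Prime]

theorem smul_zmod {G L : Type*} [Group G] [Field L] [Algebra (ZMod p) L] [MulSemiringAction G L]
    (g : G) (c : ZMod p) : g • algebraMap (ZMod p) L c = algebraMap (ZMod p) L c :=
  RingHom.congr_fun (Subsingleton.elim
    ((MulSemiringAction.toRingHom G L g).comp (algebraMap (ZMod p) L)) _) c

theorem smul_zmod_smul {G L : Type*} [Group G] [Field L] [Algebra (ZMod p) L]
    [MulSemiringAction G L] (g : G) (c : ZMod p) (x : L) : g • (c • x) = c • (g • x) := by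
  rw [Algebra.smul_def, Algebra.smul_def, smul_mul', smul_zmod]

theorem exists_zmod_of_pow_eq {L : Type*} [Field L] [Algebra (ZMod p) L] [CharP L p] {x : L}
    (h : x ^ p = x) : ∃ c : ZMod p, algebraMap (ZMod p) L c = x := by
  have hx : x ∈ (⊥ : Subfield L) := (Subfield.mem_bot_iff_pow_eq_self L p).2 h
  exact (bot_le : ⊥ ≤ (algebraMap (ZMod p) L).fieldRange) hx

theorem pow_eq_self_zmod {L : Type*} [Field L] [Algebra (ZMod p) L] (c : ZMod p) :
    algebraMap (ZMod p) L c ^ p = algebraMap (ZMod p) L c := by
  rw [← map_pow, ZMod.pow_card]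

/-- A basis made of elements of a spanning set. -/
theorem exists_basis_in {F M : Type*} [Field F] [AddCommGroup M] [Module F M]
    [FiniteDimensional F M] {s : Set M} (h : Submodule.span F s = ⊤) :
    ∃ b : Basis (Fin (finrank F M)) F M, ∀ i, b i ∈ s := by
  have hb : ∀ i, (Basis.ofSpan h.ge) i ∈ s := fun i =>
    Basis.ofSpan_subset h.ge ⟨i, rfl⟩
  have : Finite ((linearIndepOn_empty F id).extend (Set.empty_subset s)) :=
    Module.Finite.finite_basis (Basis.ofSpan h.ge)
  let _ := Fintype.ofFinite ((linearIndepOn_empty F id).extend (Set.empty_subset s))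
  let e := Fintype.equivFinOfCardEq
    (Module.finrank_eq_card_basis (Basis.ofSpan h.ge)).symm
  exact ⟨(Basis.ofSpan h.ge).reindex e, fun i => by rw [Basis.reindex_apply]; exact hb _⟩

variable {G K L : Type*} [Group G] [TopologicalSpace G] [Field K] [Field L] [Algebra K L]
  [MulSemiringAction G K] [MulSemiringAction G L] [GaloisDatum G K L]

/-- An element fixing the base as an automorphism over it. -/
def fixAut (g : G) (hg : ∀ a : K, g • a = a) : L →ₐ[K] L :=
  AlgHom.mk (MulSemiringAction.toRingHom G L g) fun a => by
    change g • algebraMap K L a = _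
    rw [GaloisDatum.smul_algebraMap, hg]

theorem fixAut_apply (g : G) (hg : ∀ a : K, g • a = a) (x : L) : fixAut g hg x = g • x := rfl

/-- Fixing generators fixes what they generate. -/
theorem smul_eq_of_mem_adjoin {g : G} (hg : ∀ a : K, g • a = a) {S : Set L}
    (hS : ∀ x ∈ S, g • x = x) {x : L} (hx : x ∈ IntermediateField.adjoin K S) : g • x = x := by
  induction hx using IntermediateField.adjoin_induction K with
  | mem y hy => exact hS y hy
  | algebraMap a => rw [GaloisDatum.smul_algebraMap, hg]
  | add y z _ _ hy hz => rw [smul_add, hy, hz]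
  | inv y _ hy => rw [smul_inv'', hy]
  | mul y z _ _ hy hz => rw [smul_mul', hy, hz]

variable [IsSepClosed L] [Algebra.IsSeparable K L]

variable (G) in
/-- The elements fixed by the group of `L` over `K` are in `K`. -/
theorem exists_of_fixed {x : L} (h : ∀ g : G, (∀ a : K, g • a = a) → g • x = x) :
    ∃ a : K, algebraMap K L a = x := by
  have : IsSepClosure K L := ⟨inferInstance, inferInstance⟩
  have hx : x ∈ IntermediateField.fixedField (⊥ : IntermediateField K L).fixingSubgroup := by
    rintro ⟨τ, hτ⟩
    obtain ⟨g, hg, hgτ⟩ := GaloisDatum.exists_lift (G := G) τ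
    change τ x = x
    rw [← hgτ, h g hg]
  rw [InfiniteGalois.fixedField_fixingSubgroup] at hx
  exact IntermediateField.mem_bot.1 hx

variable (G) in
/-- Every embedding of a subfield comes from the group. -/
theorem exists_lift_algHom {E : IntermediateField K L} (q : E →ₐ[K] L) :
    ∃ g : G, (∀ a : K, g • a = a) ∧ ∀ x : E, g • (x : L) = q x := by
  have : IsSepClosure K L := ⟨inferInstance, inferInstance⟩
  obtain ⟨g, hg, hgτ⟩ := GaloisDatum.exists_lift (G := G)
    (AlgEquiv.ofBijective (q.liftNormal L) (Algebra.IsAlgebraic.algHom_bijective _))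
  refine ⟨g, hg, fun x => ?_⟩
  rw [hgτ, AlgEquiv.coe_ofBijective]
  exact q.liftNormal_commutes L x

end FA.PhiGamma
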