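import Fermat.Agent.PhiGamma.Solutions
import Mathlib.RepresentationTheory.Basic

/-!
# Galois descent for representations on finite spaces

For a representation on a finite space over `ZMod p` with open stabilisers, the equivariant maps to
`L` form a `K`-space of the dimension of the representation and span all the maps over `L`.
-/

set_option autoImplicit false
set_option linter.unusedSectionVars false

noncomputable section

open Module Finset

namespace FA.PhiGamma

variable {p : ℕ} [hp : Fact p.Prime] {G K L : Type*} [Group G] [TopologicalSpace G] [Field K]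
  [Field L] [Algebra K L] [Algebra (ZMod p) L] [MulSemiringAction G K] [MulSemiringAction G L]
  [GaloisDatum G K L] {V : Type*} [AddCommGroup V] [Module (ZMod p) V]

variable (K L) in
/-- The maps to `L` equivariant for the group of `L` over `K`. -/
def equivariant (ρ : Representation (ZMod p) G V) : Submodule K (V →ₗ[ZMod p] L) where
  carrier := {f | ∀ g : G, (∀ a : K, g • a = a) → ∀ v, f (ρ g v) = g • f v}
  add_mem' {f₁ f₂} h₁ h₂ g hg v := by
    rw [LinearMap.add_apply, LinearMap.add_apply, h₁ g hg, h₂ g hg, smul_add]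
  zero_mem' g _ v := by simp
  smul_mem' a f hf g hg v := by
    rw [LinearMap.smul_apply, LinearMap.smul_apply, hf g hg, Algebra.smul_def, Algebra.smul_def,
      smul_mul', GaloisDatum.smul_algebraMap, hg]

theorem mem_equivariant {ρ : Representation (ZMod p) G V} {f : V →ₗ[ZMod p] L} :
    f ∈ equivariant K L ρ ↔ ∀ g : G, (∀ a : K, g • a = a) → ∀ v, f (ρ g v) = g • f v := Iff.rfl

theorem rep_inv_apply (ρ : Representation (ZMod p) G V) (g : G) (v : V) :
    ρ g⁻¹ (ρ g v) = v := by
  rw [← Module.End.mul_apply, ← map_mul, inv_mul_cancel, map_one, Module.End.one_apply]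

theorem rep_apply_inv (ρ : Representation (ZMod p) G V) (g : G) (v : V) :
    ρ g (ρ g⁻¹ v) = v := by
  rw [← Module.End.mul_apply, ← map_mul, mul_inv_cancel, map_one, Module.End.one_apply]

/-- The stabiliser of a vector. -/
def repStab (ρ : Representation (ZMod p) G V) (v : V) : Subgroup G where
  carrier := {g | ρ g v = v}
  one_mem' := by simp
  mul_mem' {a b} ha hb := by
    rw [Set.mem_ofPred_eq] at ha hb ⊢
    rw [map_mul, Module.End.mul_apply, hb, ha]
  inv_mem' {a} ha := by
    rw [Set.mem_ofPred_eq] at ha ⊢
    conv_lhs => rw [← ha]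
    rw [rep_inv_apply]

variable [IsSepClosed L] [Algebra.IsSeparable K L] [Finite V]
  {ρ : Representation (ZMod p) G V}

/-- **Descent.** -/
theorem span_equivariant (hρ : ∀ v, IsOpen {g : G | ρ g v = v}) :
    Submodule.span L (equivariant K L ρ : Set (V →ₗ[ZMod p] L)) = ⊤ := by
  classical
  have hopen : IsOpen ((⨅ v, repStab ρ v : Subgroup G) : Set G) := by
    rw [Subgroup.coe_iInf]
    exact isOpen_iInter_of_finite hρ
  obtain ⟨S, hS⟩ := GaloisDatum.exists_finite (K := K) (L := L) (⨅ v, repStab ρ v) hopen
  set E := IntermediateField.adjoin K (S : Set L)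
  have : FiniteDimensional K E :=
    IntermediateField.finiteDimensional_adjoin fun x _ => Algebra.IsIntegral.isIntegral x
  have hU : ∀ g : G, (∀ a : K, g • a = a) → (∀ x ∈ E, g • x = x) → ∀ v, ρ g v = v :=
    fun g hg hx v => Subgroup.mem_iInf.1
      (hS g hg fun x hxS => hx x (IntermediateField.subset_adjoin _ _ hxS)) v
  choose t ht htx using fun q : E →ₐ[K] L => exists_lift_algHom G q
  let _ : Fintype (E →ₐ[K] L) := Fintype.ofFinite _
  have hdual : ∀ δ : V →ₗ[ZMod p] ZMod p, (Algebra.linearMap (ZMod p) L).comp δ ∈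
      Submodule.span L (equivariant K L ρ : Set (V →ₗ[ZMod p] L)) := by
    intro δ
    set D' : (E →ₐ[K] L) → (V →ₗ[ZMod p] L) := fun q =>
      ((Algebra.linearMap (ZMod p) L).comp δ).comp (ρ (t q)⁻¹)
    have hT : ∀ a : E, (∑ q, q a • D' q) ∈ equivariant K L ρ := by
      intro a g hg v
      let move : (E →ₐ[K] L) → (E →ₐ[K] L) := fun q => (fixAut g hg).comp q
      have hmove : Function.Bijective move := by
        rw [Fintype.bijective_iff_injective_and_card]
        refine ⟨fun q q' h => AlgHom.ext fun x => ?_, rfl⟩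
        have h1 := DFunLike.congr_fun h x
        exact (MulAction.injective g) h1
      simp only [LinearMap.sum_apply, LinearMap.smul_apply, Finset.smul_sum, smul_eq_mul]
      rw [← hmove.sum_comp fun q => q a * D' q (ρ g v)]
      refine sum_congr rfl fun q _ => ?_
      have hfix : ∀ w, ρ ((t (move q))⁻¹ * g * t q) w = w := by
        refine hU _ (fun b => ?_) fun x hx => ?_
        · rw [mul_smul, mul_smul, ht, hg, inv_smul_eq_iff, ht]
        · rw [mul_smul, mul_smul, inv_smul_eq_iff, htx q ⟨x, hx⟩, htx (move q) ⟨x, hx⟩]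
          rfl
      have hD : D' (move q) (ρ g v) = g • D' q v := by
        have h1 := hfix (ρ (t q)⁻¹ v)
        rw [map_mul, map_mul, Module.End.mul_apply, Module.End.mul_apply, rep_apply_inv] at h1
        simp only [D', LinearMap.comp_apply, Algebra.linearMap_apply, smul_zmod, h1]
      rw [hD, smul_mul']
      rfl
    by_contra hnot
    obtain ⟨ℓ, hℓ, hker⟩ := Submodule.exists_le_ker_of_notMem hnot
    have hzero : ∑ q : E →ₐ[K] L, ℓ (D' q) • q.toLinearMap = (0 : E →ₗ[K] L) := by
      refine LinearMap.ext fun a => ?_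
      have h1 : ℓ (∑ q, q a • D' q) = 0 :=
        hker (Submodule.subset_span (hT a))
      rw [map_sum] at h1
      simp only [map_smul, smul_eq_mul] at h1
      simpa [mul_comm] using h1
    have hz := Fintype.linearIndependent_iff.1 (linearIndependent_toLinearMap K E L) _ hzero E.val
    have hD0 : D' E.val = (Algebra.linearMap (ZMod p) L).comp δ := by
      refine LinearMap.ext fun v => ?_
      have h1 := hU (t E.val)⁻¹ (fun b => by rw [inv_smul_eq_iff, ht]) (fun x hx => by
        rw [inv_smul_eq_iff, htx E.val ⟨x, hx⟩]; rfl) v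
      simp only [D', LinearMap.comp_apply, h1]
    exact hℓ (hD0 ▸ hz)
  rw [eq_top_iff]
  rintro f -
  have : FiniteDimensional (ZMod p) V := Module.Finite.of_finite
  set b := finBasis (ZMod p) V
  have e : f = ∑ i, f (b i) • (Algebra.linearMap (ZMod p) L).comp (b.coord i) := by
    refine b.ext fun j => ?_
    simp [LinearMap.sum_apply, Finsupp.single_apply]
  rw [e]
  exact Submodule.sum_mem _ fun i _ => Submodule.smul_mem _ _ (hdual _)

/-- The action on all the maps. -/
def twistMap (ρ : Representation (ZMod p) G V) (g : G) (f : V →ₗ[ZMod p] L) :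
    V →ₗ[ZMod p] L where
  toFun v := g • f (ρ g⁻¹ v)
  map_add' v w := by rw [map_add, map_add, smul_add]
  map_smul' c v := by rw [map_smul, map_smul, smul_zmod_smul, RingHom.id_apply]

theorem twistMap_apply (ρ : Representation (ZMod p) G V) (g : G) (f : V →ₗ[ZMod p] L) (v : V) :
    twistMap ρ g f v = g • f (ρ g⁻¹ v) := rfl

theorem twistMap_eq_of_mem {f : V →ₗ[ZMod p] L} (hf : f ∈ equivariant K L ρ) {g : G}
    (hg : ∀ a : K, g • a = a) : twistMap ρ g f = f := by
  refine LinearMap.ext fun v => ?_
  rw [twistMap_apply, ← hf g hg, rep_apply_inv]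

theorem twistMap_sum_smul (g : G) {ι : Type*} (s : Finset ι) (c : ι → L)
    (f : ι → (V →ₗ[ZMod p] L)) :
    twistMap ρ g (∑ i ∈ s, c i • f i) = ∑ i ∈ s, (g • c i) • twistMap ρ g (f i) := by
  refine LinearMap.ext fun v => ?_
  simp [twistMap_apply, LinearMap.sum_apply, Finset.smul_sum, smul_mul']

/-- **The equivariant maps form a space of the dimension of the representation.** -/
theorem exists_equivariant_basis (hρ : ∀ v, IsOpen {g : G | ρ g v = v}) :
    ∃ b : Basis (Fin (finrank (ZMod p) V)) L (V →ₗ[ZMod p] L),
      (∀ i, b i ∈ equivariant K L ρ) ∧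
      ∀ f, f ∈ equivariant K L ρ ↔
        ∃ c : Fin (finrank (ZMod p) V) → K, f = ∑ i, algebraMap K L (c i) • b i := by
  have : FiniteDimensional (ZMod p) V := Module.Finite.of_finite
  have hfr : finrank L (V →ₗ[ZMod p] L) = finrank (ZMod p) V :=
    Module.finrank_linearMap_self (ZMod p) L V
  obtain ⟨b₀, hb₀⟩ := exists_basis_in (span_equivariant (K := K) (L := L) hρ)
  set b := b₀.reindex (finCongr hfr)
  have hb : ∀ i, b i ∈ equivariant K L ρ := fun i => by
    rw [Basis.reindex_apply]; exact hb₀ _
  refine ⟨b, hb, fun f => ⟨fun hf => ?_, ?_⟩⟩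
  · have e : ∀ i, ∀ g : G, (∀ a : K, g • a = a) → g • b.repr f i = b.repr f i := fun i g hg => by
      have h1 : ∑ i, (g • b.repr f i) • b i = f := by
        conv_rhs => rw [← twistMap_eq_of_mem hf hg, ← b.sum_repr f, twistMap_sum_smul]
        exact sum_congr rfl fun i _ => by rw [twistMap_eq_of_mem (hb i) hg]
      have h2 := congrArg (fun q => b.repr q i) h1
      simpa [Basis.repr_self, Finsupp.single_apply] using h2
    choose c hc using fun i => exists_of_fixed G (e i)
    exact ⟨c, by simp only [hc]; exact (b.sum_repr f).symm⟩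
  · rintro ⟨c, rfl⟩
    refine sum_mem fun i _ => ?_
    rw [algebraMap_smul]
    exact Submodule.smul_mem _ _ (hb i)

/-- The dimension of the equivariant maps. -/
theorem finrank_equivariant (hρ : ∀ v, IsOpen {g : G | ρ g v = v}) :
    finrank K (equivariant K L ρ) = finrank (ZMod p) V ∧
      FiniteDimensional K (equivariant K L ρ) := by
  obtain ⟨b, hb, hiff⟩ := exists_equivariant_basis (K := K) (L := L) hρ
  have hli : LinearIndependent K (fun i => (⟨b i, hb i⟩ : equivariant K L ρ)) :=
    LinearIndependent.of_comp (equivariant K L ρ).subtype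
      (b.linearIndependent.restrict_scalars' K)
  have hspan : ⊤ ≤ Submodule.span K (Set.range fun i => (⟨b i, hb i⟩ : equivariant K L ρ)) := by
    rintro ⟨f, hf⟩ -
    obtain ⟨c, rfl⟩ := (hiff f).1 hf
    refine (Submodule.mem_span_range_iff_exists_fun _).2 ⟨c, Subtype.ext ?_⟩
    simp [algebraMap_smul]
  exact ⟨(finrank_eq_card_basis (Basis.mk hli hspan)).trans (Fintype.card_fin _),
    Module.Finite.of_basis (Basis.mk hli hspan)⟩

/-- The `p`-th power of an equivariant map. -/
def powMap [CharP L p] (f : V →ₗ[ZMod p] L) : V →ₗ[ZMod p] L where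
  toFun v := f v ^ p
  map_add' v w := by rw [map_add, add_pow_char]
  map_smul' c v := by
    rw [map_smul, RingHom.id_apply, Algebra.smul_def, Algebra.smul_def, mul_pow, pow_eq_self_zmod]

theorem powMap_mem [CharP L p] {f : V →ₗ[ZMod p] L} (hf : f ∈ equivariant K L ρ) :
    powMap f ∈ equivariant K L ρ := fun g hg v => by
  change f (ρ g v) ^ p = g • f v ^ p
  rw [hf g hg, smul_pow']

variable (K L) in
/-- The `p`-th power on the equivariant maps. -/
def powEquivariant [CharP L p] (ρ : Representation (ZMod p) G V) :
    equivariant K L ρ →+ equivariant K L ρ where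
  toFun f := ⟨powMap (f : V →ₗ[ZMod p] L), powMap_mem f.2⟩
  map_zero' := Subtype.ext (LinearMap.ext fun v => by
    change (0 : L) ^ p = 0
    exact zero_pow hp.out.ne_zero)
  map_add' f g := Subtype.ext (LinearMap.ext fun v => by
    change ((f : V →ₗ[ZMod p] L) v + (g : V →ₗ[ZMod p] L) v) ^ p = _
    rw [add_pow_char]
    rfl)

theorem powEquivariant_apply [CharP L p] (f : equivariant K L ρ) (v : V) :
    (powEquivariant K L ρ f : V →ₗ[ZMod p] L) v = (f : V →ₗ[ZMod p] L) v ^ p := rfl

/-- **The equivariant maps form an étale `φ`-module.** -/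
theorem isEtalePhi_powEquivariant [CharP L p] (hρ : ∀ v, IsOpen {g : G | ρ g v = v}) :
    IsEtalePhi p K (powEquivariant K L ρ) where
  map_smul a f := Subtype.ext (LinearMap.ext fun v => smul_pow a ((f : V →ₗ[ZMod p] L) v) p)
  span_range := by
    classical
    obtain ⟨b, hb, hiff⟩ := exists_equivariant_basis (K := K) (L := L) hρ
    obtain ⟨hfr, hfin⟩ := finrank_equivariant (K := K) (L := L) hρ
    have hspan : Submodule.span L (Set.range fun i => powMap (b i)) = ⊤ := by
      rw [eq_top_iff]
      have : FiniteDimensional (ZMod p) V := Module.Finite.of_finite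
      set v := finBasis (ZMod p) V
      have hδ : ∀ j, powMap ((Algebra.linearMap (ZMod p) L).comp (v.coord j)) =
          (Algebra.linearMap (ZMod p) L).comp (v.coord j) := fun j =>
        LinearMap.ext fun w => pow_eq_self_zmod _
      rintro f -
      have e : f = ∑ j, f (v j) • (Algebra.linearMap (ZMod p) L).comp (v.coord j) := by
        refine v.ext fun i => ?_
        simp [LinearMap.sum_apply, Finsupp.single_apply]
      rw [e]
      refine Submodule.sum_mem _ fun j _ => Submodule.smul_mem _ _ ?_
      rw [← hδ j, ← b.sum_repr ((Algebra.linearMap (ZMod p) L).comp (v.coord j))]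
      have e2 : ∀ c : Fin (finrank (ZMod p) V) → L,
          powMap (∑ i, c i • b i) = ∑ i, c i ^ p • powMap (b i) := fun c => by
        refine LinearMap.ext fun w => ?_
        simp [powMap, LinearMap.sum_apply, sum_pow_char, mul_pow]
      rw [e2]
      exact Submodule.sum_mem _ fun i _ =>
        Submodule.smul_mem _ _ (Submodule.subset_span ⟨i, rfl⟩)
    set w : Fin (finrank (ZMod p) V) → equivariant K L ρ := fun i =>
      powEquivariant K L ρ ⟨b i, hb i⟩
    have hli : LinearIndependent L fun i => powMap (b i) :=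
      linearIndependent_of_top_le_span_of_card_eq_finrank hspan.ge
        (finrank_eq_card_basis b).symm
    have hliK : LinearIndependent K w :=
      LinearIndependent.of_comp (equivariant K L ρ).subtype (hli.restrict_scalars' K)
    refine eq_top_iff.2 ((hliK.span_eq_top_of_card_eq_finrank' (by
      rw [Fintype.card_fin, hfr])).ge.trans (Submodule.span_mono ?_))
    rintro _ ⟨i, rfl⟩
    exact ⟨_, rfl⟩

end FA.PhiGamma
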