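import Mathlib.FieldTheory.IsSepClosed
import Mathlib.FieldTheory.Separable
import Mathlib.LinearAlgebra.Dimension.Free
import Mathlib.LinearAlgebra.Dimension.OrzechProperty
import Mathlib.LinearAlgebra.FiniteDimensional.Lemmas
import Mathlib.RingTheory.Finiteness.Defs
import Mathlib.Algebra.CharP.Lemmas
import Mathlib.LinearAlgebra.FiniteDimensional.Basic
import Mathlib.LinearAlgebra.Basis.VectorSpace

/-!
# Étale `φ`-modules over a separably closed field

A `p`-linear additive map whose image spans is an étale `φ`-module. Over a separably closed field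
such a module is spanned by its fixed vectors (Lang's theorem for the general linear group).
-/

set_option autoImplicit false
set_option linter.unusedSectionVars false

noncomputable section

open Polynomial Module Finset

namespace FA.PhiGamma

variable {p : ℕ} [hp : Fact p.Prime]

/-- An additive map which is `p`-linear and whose image spans. -/
structure IsEtalePhi (p : ℕ) (F : Type*) {M : Type*} [Field F] [AddCommGroup M] [Module F M]
    (φ : M →+ M) : Prop where
  map_smul : ∀ (a : F) (x : M), φ (a • x) = a ^ p • φ x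
  span_range : Submodule.span F (Set.range φ) = ⊤

variable {F : Type*} [Field F] {M : Type*} [AddCommGroup M] [Module F M] {φ : M →+ M}

theorem IsEtalePhi.map_sum_smul (h : IsEtalePhi p F φ) {ι : Type*} (s : Finset ι) (c : ι → F)
    (v : ι → M) : φ (∑ i ∈ s, c i • v i) = ∑ i ∈ s, c i ^ p • φ (v i) := by
  rw [map_sum]
  exact sum_congr rfl fun i _ => h.map_smul _ _

/-- The image of a basis is a basis. -/
theorem IsEtalePhi.span_image_basis (h : IsEtalePhi p F φ) {ι : Type*} [Fintype ι]
    (b : Basis ι F M) : Submodule.span F (Set.range fun i => φ (b i)) = ⊤ := by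
  rw [eq_top_iff, ← h.span_range, Submodule.span_le]
  rintro _ ⟨x, rfl⟩
  rw [← b.sum_repr x, h.map_sum_smul]
  exact Submodule.sum_mem _ fun i _ =>
    Submodule.smul_mem _ _ (Submodule.subset_span ⟨i, rfl⟩)

/-- The image of a basis as a basis. -/
def IsEtalePhi.basisImage (h : IsEtalePhi p F φ) {ι : Type*} [Fintype ι] (b : Basis ι F M) :
    Basis ι F M :=
  basisOfTopLeSpanOfCardEqFinrank (fun i => φ (b i)) (h.span_image_basis b).ge
    (finrank_eq_card_basis b).symm

theorem IsEtalePhi.basisImage_apply (h : IsEtalePhi p F φ) {ι : Type*} [Fintype ι]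
    (b : Basis ι F M) (i : ι) : h.basisImage b i = φ (b i) := by
  rw [IsEtalePhi.basisImage, coe_basisOfTopLeSpanOfCardEqFinrank]

/-- Independent vectors have independent images. -/
theorem IsEtalePhi.linearIndependent_map [FiniteDimensional F M] (h : IsEtalePhi p F φ)
    {ι : Type*} {v : ι → M} (hv : LinearIndependent F v) :
    LinearIndependent F fun i => φ (v i) := by
  classical
  set b := Basis.extend hv.linearIndepOn_id
  have : Finite _ := Module.Finite.finite_basis b
  let _ := Fintype.ofFinite (hv.linearIndepOn_id.extend (Set.subset_univ _))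
  have hb := (h.basisImage b).linearIndependent
  have e : (fun i => φ (v i)) =
      (fun j => h.basisImage b j) ∘ fun i => (⟨v i, Basis.subset_extend _ ⟨i, rfl⟩⟩ :
        hv.linearIndepOn_id.extend (Set.subset_univ _)) := by
    funext i
    rw [Function.comp_apply, h.basisImage_apply, Basis.extend_apply_self]
  rw [e]
  exact hb.comp _ fun i j hij => hv.injective (congrArg Subtype.val hij)

/-- The polynomials giving the coordinates of a fixed vector. -/
def fixPoly (a : ℕ → F) : ℕ → F[X]
  | 0 => Polynomial.C (a 0) * X ^ p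
  | i + 1 => fixPoly a i ^ p + Polynomial.C (a (i + 1)) * X ^ p

theorem natDegree_fixPoly {a : ℕ → F} (h0 : a 0 ≠ 0) :
    ∀ i, (fixPoly (p := p) a i).natDegree = p ^ (i + 1)
  | 0 => by rw [fixPoly, natDegree_C_mul_X_pow _ _ h0, zero_add, pow_one]
  | i + 1 => by
    have hlt : p < p ^ (i + 2) := by
      calc p = p ^ 1 := (pow_one p).symm
        _ < p ^ (i + 2) := pow_lt_pow_right₀ hp.out.one_lt (by omega)
    rw [fixPoly, natDegree_add_eq_left_of_natDegree_lt]
    · rw [natDegree_pow, natDegree_fixPoly h0 i, ← pow_succ']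
    · rw [natDegree_pow, natDegree_fixPoly h0 i, ← pow_succ']
      exact (natDegree_C_mul_X_pow_le _ _).trans_lt hlt

theorem derivative_fixPoly [CharP F p] (a : ℕ → F) :
    ∀ i, derivative (fixPoly (p := p) a i) = 0
  | 0 => by rw [fixPoly]; simp [derivative_X_pow, CharP.cast_eq_zero]
  | i + 1 => by rw [fixPoly]; simp [derivative_pow, CharP.cast_eq_zero]

theorem exists_nonzero_fixPoly_root [CharP F p] [IsSepClosed F] {a : ℕ → F} (h0 : a 0 ≠ 0)
    (i : ℕ) : ∃ y, y ≠ 0 ∧ (fixPoly (p := p) a i).eval y = y := by
  classical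
  set P := fixPoly (p := p) a i - X
  have hdeg : P.natDegree = p ^ (i + 1) := by
    rw [natDegree_sub_eq_left_of_natDegree_lt, natDegree_fixPoly h0]
    rw [natDegree_fixPoly h0, natDegree_X]
    exact Nat.one_lt_pow (by omega) hp.out.one_lt
  have hsep : P.Separable := by
    rw [separable_def, derivative_sub, derivative_fixPoly, derivative_X, zero_sub]
    exact isCoprime_one_right.neg_right
  have hcard := (IsSepClosed.splits_of_separable P hsep).natDegree_eq_card_roots
  have hnd := nodup_roots hsep
  by_contra hcon
  push Not at hcon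
  have hall : ∀ y ∈ P.roots, y = 0 := fun y hy => by
    by_contra hy0
    have h1 := (mem_roots'.1 hy).2
    rw [IsRoot, eval_sub, eval_X, sub_eq_zero] at h1
    exact hcon y hy0 h1
  have h2 : P.roots.card ≤ 1 := by
    rw [← Multiset.toFinset_card_of_nodup hnd]
    exact card_le_one.2 fun x hx y hy =>
      (hall x (Multiset.mem_toFinset.1 hx)).trans (hall y (Multiset.mem_toFinset.1 hy)).symm
  rw [← hcard, hdeg] at h2
  exact absurd h2 (not_le.2 (Nat.one_lt_pow (by omega) hp.out.one_lt))

/-- A nonzero étale module over a separably closed field has a nonzero fixed vector. -/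
theorem IsEtalePhi.exists_fixed [CharP F p] [IsSepClosed F] [FiniteDimensional F M]
    (h : IsEtalePhi p F φ) {v : M} (hv : v ≠ 0) : ∃ w, w ≠ 0 ∧ φ w = w := by
  classical
  set u : ℕ → M := fun i => φ^[i] v with hu
  have hsucc : ∀ i, φ (u i) = u (i + 1) := fun i => (Function.iterate_succ_apply' φ i v).symm
  have hind : ∀ r, (∀ i < r, u i ∉ Submodule.span F (Set.range fun j : Fin i => u j)) →
      LinearIndependent F fun j : Fin r => u j := by
    intro r
    induction r with
    | zero => exact fun _ => linearIndependent_empty_type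
    | succ r ih =>
      intro hr
      have e : (fun j : Fin (r + 1) => u j) = Fin.snoc (fun j : Fin r => u j) (u r) := by
        funext j
        refine Fin.lastCases ?_ (fun i => ?_) j
        · rw [Fin.snoc_last, Fin.val_last]
        · rw [Fin.snoc_castSucc, Fin.val_castSucc]
      rw [e, linearIndependent_finSnoc]
      exact ⟨ih fun i hi => hr i (hi.trans r.lt_succ_self), hr r r.lt_succ_self⟩
  have hex : ∃ r, u r ∈ Submodule.span F (Set.range fun j : Fin r => u j) := by
    by_contra hcon
    push Not at hcon
    have := (hind (finrank F M + 1) fun i _ => hcon i).fintype_card_le_finrank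
    rw [Fintype.card_fin] at this
    omega
  set r := Nat.find hex with hr
  have hmem := Nat.find_spec hex
  have hindr := hind r fun i hi => Nat.find_min hex hi
  obtain ⟨s, hs⟩ : ∃ s, r = s + 1 := by
    refine ⟨r - 1, (Nat.sub_add_cancel ?_).symm⟩
    by_contra h0
    rw [not_le, Nat.lt_one_iff] at h0
    rw [← hr, h0] at hmem
    simp [Set.range_eq_empty, hu, hv] at hmem
  rw [← hr, hs, Submodule.mem_span_range_iff_exists_fun] at hmem
  obtain ⟨c, hc⟩ := hmem
  rw [hs] at hindr
  set a : ℕ → F := fun i => if hi : i < s + 1 then c ⟨i, hi⟩ else 0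
  have hrel : u (s + 1) = ∑ i ∈ range (s + 1), a i • u i := by
    rw [← hc, ← Fin.sum_univ_eq_sum_range (fun i => a i • u i)]
    exact sum_congr rfl fun i _ => by simp only [a, dif_pos i.2]
  have ha0 : a 0 ≠ 0 := by
    intro h0
    have himg := h.linearIndependent_map hindr
    simp only [hsucc] at himg
    rw [sum_range_succ', h0, zero_smul, add_zero] at hrel
    rw [Fintype.linearIndependent_iff] at himg
    set g : Fin (s + 1) → F := Fin.snoc (fun j : Fin s => a (j + 1)) (-1)
    have hg : ∑ j : Fin (s + 1), g j • u ((j : ℕ) + 1) = 0 := by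
      rw [Fin.sum_univ_castSucc]
      simp only [g, Fin.snoc_castSucc, Fin.snoc_last, Fin.val_castSucc, Fin.val_last]
      rw [Fin.sum_univ_eq_sum_range (fun i => a (i + 1) • u (i + 1)), ← hrel, neg_one_smul,
        add_neg_cancel]
    have := himg g hg (Fin.last s)
    simp [g] at this
  obtain ⟨y, hy0, hy⟩ := exists_nonzero_fixPoly_root (p := p) ha0 s
  set x : ℕ → F := fun i => (fixPoly (p := p) a i).eval y with hx
  have hx0 : x 0 = a 0 * y ^ p := by simp [hx, fixPoly]
  have hxs : ∀ i, x (i + 1) = x i ^ p + a (i + 1) * y ^ p := fun i => by simp [hx, fixPoly]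
  have hxy : x s = y := hy
  refine ⟨∑ i ∈ range (s + 1), x i • u i, fun h0 => hy0 ?_, ?_⟩
  · rw [← Fin.sum_univ_eq_sum_range (fun i => x i • u i)] at h0
    rw [← hxy]
    simpa using Fintype.linearIndependent_iff.1 hindr (fun j => x j) h0 (Fin.last s)
  · rw [h.map_sum_smul]
    simp only [hsucc]
    rw [sum_range_succ, hxy, hrel, smul_sum, sum_range_succ' (fun i => y ^ p • a i • u i),
      ← add_assoc, ← sum_add_distrib, sum_range_succ' (fun i => x i • u i)]
    simp only [smul_smul, ← add_smul, hxs, hx0, mul_comm (y ^ p)]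

theorem exists_artinSchreier [CharP F p] [IsSepClosed F] (c : F) : ∃ x : F, x ^ p - x + c = 0 := by
  obtain ⟨x, hx⟩ := IsSepClosed.exists_root_C_mul_X_pow_add_C_mul_X_add_C (n := p) (1 : F) (-1) c
    (CharP.cast_eq_zero F p) hp.out.two_le (neg_ne_zero.2 one_ne_zero)
  exact ⟨x, by linear_combination hx⟩

/-- The map on the quotient by the line of a fixed vector. -/
def quotPhi (h : IsEtalePhi p F φ) {w : M} (hw : φ w = w) :
    M ⧸ (F ∙ w) →+ M ⧸ (F ∙ w) :=
  QuotientAddGroup.lift (F ∙ w).toAddSubgroup
    ((Submodule.mkQ (F ∙ w)).toAddMonoidHom.comp φ) fun x hx => by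
      obtain ⟨c, rfl⟩ := Submodule.mem_span_singleton.1 hx
      change Submodule.Quotient.mk (φ (c • w)) = 0
      rw [h.map_smul, hw, Submodule.Quotient.mk_eq_zero]
      exact Submodule.smul_mem _ _ (Submodule.mem_span_singleton_self w)

theorem quotPhi_mk (h : IsEtalePhi p F φ) {w : M} (hw : φ w = w) (x : M) :
    quotPhi h hw (Submodule.Quotient.mk x) = Submodule.Quotient.mk (φ x) := rfl

theorem isEtalePhi_quotPhi (h : IsEtalePhi p F φ) {w : M} (hw : φ w = w) :
    IsEtalePhi p F (quotPhi h hw) where
  map_smul a x := by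
    induction x using Submodule.Quotient.induction_on with
    | H x =>
      rw [← Submodule.Quotient.mk_smul, quotPhi_mk, h.map_smul, quotPhi_mk,
        ← Submodule.Quotient.mk_smul]
  span_range := by
    rw [eq_top_iff]
    rintro x -
    induction x using Submodule.Quotient.induction_on with
    | H x =>
      have hx : x ∈ Submodule.span F (Set.range φ) := h.span_range ▸ Submodule.mem_top
      have := Submodule.mem_map_of_mem (f := Submodule.mkQ (F ∙ w)) hx
      rw [Submodule.map_span] at this
      refine Submodule.span_mono ?_ this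
      rintro _ ⟨_, ⟨y, rfl⟩, rfl⟩
      exact ⟨Submodule.Quotient.mk y, rfl⟩

/-- **Lang's theorem**: over a separably closed field the fixed vectors span. -/
theorem IsEtalePhi.span_fixed [CharP F p] [IsSepClosed F] : ∀ (n : ℕ) {M : Type _}
    [AddCommGroup M] [Module F M] [FiniteDimensional F M] {φ : M →+ M},
      IsEtalePhi p F φ → finrank F M ≤ n → Submodule.span F {x | φ x = x} = ⊤ := by
  intro n
  induction n with
  | zero =>
    intro M _ _ _ φ _ hle
    have : Subsingleton M := finrank_zero_iff.1 (Nat.le_zero.1 hle)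
    exact Subsingleton.elim _ _
  | succ n ih =>
    intro M _ _ _ φ h hle
    rcases subsingleton_or_nontrivial M with hM | hM
    · exact Subsingleton.elim _ _
    obtain ⟨v, hv⟩ := exists_ne (0 : M)
    obtain ⟨w, hw0, hw⟩ := h.exists_fixed hv
    have hq := ih (isEtalePhi_quotPhi h hw) (by
      have e := Submodule.finrank_quotient_add_finrank (F ∙ w)
      rw [finrank_span_singleton hw0] at e
      omega)
    set S := Submodule.span F {x | φ x = x}
    have hwS : w ∈ S := Submodule.subset_span hw
    have hsub : {x | quotPhi h hw x = x} ⊆ (S.map (Submodule.mkQ (F ∙ w)) : Set _) := by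
      intro x hx
      induction x using Submodule.Quotient.induction_on with
      | H x =>
        rw [Set.mem_ofPred_eq, quotPhi_mk, Submodule.Quotient.eq,
          Submodule.mem_span_singleton] at hx
        obtain ⟨c, hc⟩ := hx
        obtain ⟨y, hy⟩ := exists_artinSchreier (p := p) c
        refine ⟨x + y • w, Submodule.subset_span ?_, ?_⟩
        · rw [Set.mem_ofPred_eq, map_add, h.map_smul, hw, ← sub_eq_zero]
          rw [show φ x + y ^ p • w - (x + y • w) = (φ x - x) + (y ^ p • w - y • w) by abel, ← hc,
            ← sub_smul, ← add_smul, show c + (y ^ p - y) = 0 by linear_combination hy, zero_smul]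
        · rw [Submodule.mkQ_apply, Submodule.Quotient.eq]
          exact Submodule.mem_span_singleton.2 ⟨y, by abel⟩
    rw [eq_top_iff]
    rintro z -
    have hz : Submodule.Quotient.mk z ∈ S.map (Submodule.mkQ (F ∙ w)) :=
      Submodule.span_le.2 hsub (hq ▸ Submodule.mem_top)
    obtain ⟨z', hz', hzz⟩ := hz
    rw [Submodule.mkQ_apply, Submodule.Quotient.eq, Submodule.mem_span_singleton] at hzz
    obtain ⟨c, hc⟩ := hzz
    have e : z = z' - c • w := by rw [hc]; abel
    exact e ▸ S.sub_mem hz' (S.smul_mem _ hwS)

/-- **Lang's theorem.** -/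
theorem IsEtalePhi.span_fixed_eq_top [CharP F p] [IsSepClosed F] [FiniteDimensional F M]
    (h : IsEtalePhi p F φ) : Submodule.span F {x | φ x = x} = ⊤ :=
  IsEtalePhi.span_fixed _ h le_rfl

end FA.PhiGamma
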