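import Fermat.Agent.PhiGamma.TiltAction
import Fermat.Agent.PhiGamma.Category

/-!
# Fontaine's theorem modulo `p`

The representations of the absolute Galois group of `ℚ_p` on finite spaces over `ZMod p` are
anti-equivalent to the étale `(φ, Γ)`-modules over `𝔽_p((t))`.
-/

set_option autoImplicit false
set_option linter.unusedSectionVars false

noncomputable section

open Filter FA.TateSen FA.FontaineWintenberger Module
open scoped Topology

namespace FA.PhiGamma

variable {p : ℕ} [hp : Fact p.Prime]

local notation "Ω" => PadicAlgCl p
local notation "G" => PadicAlgCl p ≃ₐ[ℚ_[p]] PadicAlgCl p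

instance : CharP (sepField p) p :=
  RingHom.charP (sepField p).val.toRingHom Subtype.val_injective p

instance sepPrime : Algebra (ZMod p) (sepField p) := ZMod.algebra _ p

instance : IsSepClosed (sepField p) :=
  (inferInstance : IsSepClosure (baseField p) (sepField p)).sep_closed

instance : Algebra.IsSeparable (baseField p) (sepField p) :=
  (inferInstance : IsSepClosure (baseField p) (sepField p)).separable

instance : IsTopologicalRing (sepField p) :=
  inferInstanceAs (IsTopologicalRing (sepField p).toSubalgebra.toSubring)

instance : ContinuousSMul G (sepField p) :=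
  Topology.IsInducing.continuousSMul (g := fun x : sepField p => ((x : algField p) : Flat p))
    (f := (id : G → G)) (Topology.IsInducing.subtypeVal.comp Topology.IsInducing.subtypeVal)
    continuous_id fun {_ _} => rfl

theorem mem_ker_of_smul {σ : G} (h : ∀ a : baseField p, σ • a = a) :
    σ ∈ (cycInf p).fixingSubgroup :=
  (fix_base_iff σ).1 fun x hx => congrArg Subtype.val (h ⟨x, hx⟩)

instance : Normal (baseField p) (algField p) :=
  normal_iff.2 fun y => ⟨Algebra.IsIntegral.isIntegral y, IsAlgClosed.splits _⟩

theorem exists_lift_sep (τ : sepField p ≃ₐ[baseField p] sepField p) :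
    ∃ σ : G, (∀ a : baseField p, σ • a = a) ∧ ∀ x : sepField p, σ • x = τ x := by
  obtain ⟨σ, hσ⟩ := towerAut_surjective (τ.liftNormal (algField p))
  refine ⟨σ, fun a => Subtype.ext (flatGal_baseField σ.2 a.2), fun x => Subtype.ext ?_⟩
  have h : towerAut p σ (x : algField p) = ((τ x : sepField p) : algField p) := by
    rw [hσ]
    exact τ.liftNormal_commutes (algField p) x
  rw [← h]
  rfl

theorem exists_finite_sep (U : Subgroup G) (hU : IsOpen (U : Set G)) :
    ∃ S : Finset (sepField p), ∀ σ : G, (∀ a : baseField p, σ • a = a) →
      (∀ x ∈ S, σ • x = x) → σ ∈ U := by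
  classical
  have hmem :
      (fun τ => (((towerEquiv p).symm τ : (cycInf p).fixingSubgroup) : G)) ⁻¹' (U : Set G) ∈
      𝓝 (1 : algField p ≃ₐ[baseField p] algField p) :=
    (hU.preimage (continuous_subtype_val.comp (towerEquiv p).symm.continuous)).mem_nhds (by
      change (((towerEquiv p).symm 1 : (cycInf p).fixingSubgroup) : G) ∈ U
      rw [map_one]
      exact U.one_mem)
  obtain ⟨E, hE, hsub⟩ := (krullTopology_mem_nhds_one_iff _ _ _).1 hmem
  set b := Module.finBasis (baseField p) E
  have : ExpChar (sepField p) p := ExpChar.prime hp.out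
  choose n y hy using fun i =>
    IsPurelyInseparable.pow_mem (sepField p) p (b i : algField p)
  refine ⟨Finset.univ.image y, fun σ hσ hS => ?_⟩
  set σ' : (cycInf p).fixingSubgroup := ⟨σ, mem_ker_of_smul hσ⟩
  have hfix : towerAut p σ' ∈ E.fixingSubgroup := by
    rw [IntermediateField.mem_fixingSubgroup_iff]
    intro x hx
    have hb : ∀ i, towerAut p σ' (b i : algField p) = b i := fun i => by
      have : ExpChar (algField p) p := ExpChar.prime hp.out
      refine iterateFrobenius_inj (algField p) p (n i) ?_
      rw [iterateFrobenius_def, iterateFrobenius_def, ← map_pow]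
      rw [show (b i : algField p) ^ p ^ n i = (y i : algField p) from (hy i).symm]
      exact congrArg (fun z : sepField p => (z : algField p))
        (hS (y i) (Finset.mem_image.2 ⟨i, Finset.mem_univ _, rfl⟩))
    have e := congrArg E.val (b.sum_repr ⟨x, hx⟩)
    simp only [map_sum, map_smul] at e
    rw [← show (∑ i, b.repr ⟨x, hx⟩ i • (b i : algField p)) = x from e, map_sum]
    exact Finset.sum_congr rfl fun i _ => by rw [map_smul, hb i]
  have h := hsub hfix
  rw [Set.mem_preimage, show (towerEquiv p).symm (towerAut p σ') = σ' from
    (towerEquiv p).symm_apply_apply σ'] at h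
  exact h

instance : GaloisDatum G (baseField p) (sepField p) where
  smul_algebraMap _ _ := rfl
  exists_lift := exists_lift_sep
  exists_finite := exists_finite_sep

variable (p) in
/-- An étale `(φ, Γ)`-module over `𝔽_p((t))`: the group of `ℚ_p` acts through its quotient
`Γ` by the group of the cyclotomic tower. -/
abbrev EtalePhiGamma := PhiGammaModule p G (baseField p) (sepField p)

variable (p) in
/-- **Fontaine's theorem modulo `p`.** -/
def fontaineEquivalence : (FinRep p G)ᵒᵖ ≌ EtalePhiGamma p :=
  phiGammaEquivalence p G (baseField p) (sepField p)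

/-- The tower acts trivially on a module. -/
theorem act_tower_eq_self (D : EtalePhiGamma p) {σ : G} (hσ : σ ∈ (cycInf p).fixingSubgroup)
    (x : D.carrier) : D.act σ x = x :=
  D.act_eq_self σ (fun a => Subtype.ext (flatGal_baseField hσ a.2)) x

end FA.PhiGamma
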