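import Fermat.Agent.PhiGamma.Category
import Mathlib.Algebra.Algebra.ZMod
import Mathlib.FieldTheory.KrullTopology

/-!
# Katz's theorem

The finite representations over `ZMod p` of the absolute Galois group of a field of characteristic
`p` are anti-equivalent to its étale `φ`-modules.
-/

set_option autoImplicit false
set_option linter.unusedSectionVars false

noncomputable section

open Module CategoryTheory
open scoped Topology

namespace FA.PhiGamma

universe u

variable (p : ℕ) [hp : Fact p.Prime] (K : Type u) [Field K] [CharP K p]

/-- An étale `φ`-module. -/
structure PhiModule where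
  carrier : Type u
  [addCommGroup : AddCommGroup carrier]
  [module : Module K carrier]
  [finiteDimensional : FiniteDimensional K carrier]
  phi : carrier →+ carrier
  isEtale : IsEtalePhi p K phi

attribute [instance] PhiModule.addCommGroup PhiModule.module PhiModule.finiteDimensional

variable {p K} in
/-- A morphism of `φ`-modules. -/
@[ext]
structure PhiHom (D D' : PhiModule p K) where
  toLin : D.carrier →ₗ[K] D'.carrier
  comm : ∀ x, toLin (D.phi x) = D'.phi (toLin x)

instance : Category (PhiModule p K) where
  Hom D D' := PhiHom D D'
  id D := ⟨LinearMap.id, fun _ => rfl⟩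
  comp f g := ⟨g.toLin.comp f.toLin, fun x => by
    rw [LinearMap.comp_apply, LinearMap.comp_apply, f.comm, g.comm]⟩

local notation "S" => SeparableClosure K
local notation "Γ" => SeparableClosure K ≃ₐ[K] SeparableClosure K

/-- The Galois group fixes the base. -/
@[instance_reducible]
def galBaseAction : MulSemiringAction Γ K where
  smul _ a := a
  one_smul _ := rfl
  mul_smul _ _ _ := rfl
  smul_zero _ := rfl
  smul_add _ _ _ := rfl
  smul_one _ := rfl
  smul_mul _ _ _ := rfl

attribute [local instance] galBaseAction

theorem galBase_smul (g : Γ) (a : K) : g • a = a := rfl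

/-- The discrete topology of the separable closure. -/
@[instance_reducible]
def sepTopology : TopologicalSpace S := ⊥

/-- The prime field inside the separable closure. -/
@[instance_reducible]
def sepPrimeAlgebra : Algebra (ZMod p) S :=
  have : CharP S p := charP_of_injective_algebraMap (algebraMap K S).injective p
  ZMod.algebra S p

attribute [local instance] sepTopology sepPrimeAlgebra

theorem charP_sep : CharP S p := charP_of_injective_algebraMap (algebraMap K S).injective p

attribute [local instance] charP_sep

theorem discreteTopology_sep : DiscreteTopology S := ⟨rfl⟩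

attribute [local instance] discreteTopology_sep

theorem continuousSMul_sep : ContinuousSMul Γ S :=
  continuousSMul_iff_stabilizer_isOpen.2 fun x => stabilizer_isOpen_of_isIntegral x

attribute [local instance] continuousSMul_sep

theorem galoisDatum_sep : GaloisDatum Γ K S where
  smul_algebraMap g a := g.commutes a
  exists_lift τ := ⟨τ, fun _ => rfl, fun _ => rfl⟩
  exists_finite U hU := by
    obtain ⟨E, hE, hsub⟩ := (krullTopology_mem_nhds_one_iff K S U).1 (hU.mem_nhds U.one_mem)
    classical
    set b := Module.finBasis K E
    refine ⟨Finset.univ.image fun i => (b i : S), fun g _ hS => hsub ?_⟩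
    rw [SetLike.mem_coe, IntermediateField.mem_fixingSubgroup_iff]
    intro x hx
    have e := congrArg E.val (b.sum_repr ⟨x, hx⟩)
    simp only [map_sum, map_smul] at e
    rw [← show (∑ i, b.repr ⟨x, hx⟩ i • (b i : S)) = x from e, map_sum]
    exact Finset.sum_congr rfl fun i _ => by
      rw [map_smul]
      exact congrArg _ (hS (b i : S) (Finset.mem_image.2 ⟨i, Finset.mem_univ _, rfl⟩))

attribute [local instance] galoisDatum_sep

/-- A `φ`-module with the trivial action. -/
def PhiModule.withAction (D : PhiModule p K) : PhiGammaModule p Γ K S where
  carrier := D.carrier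
  phi := D.phi
  isEtale := D.isEtale
  act _ := AddMonoidHom.id _
  act_one _ := rfl
  act_mul _ _ _ := rfl
  act_smul _ _ _ := rfl
  phi_act _ _ := rfl
  act_eq_self _ _ _ := rfl
  continuous_coord _ _ := continuous_const

/-- For this datum the actions are trivial. -/
def forgetAction : PhiGammaModule p Γ K S ≌ PhiModule p K :=
  CategoryTheory.Equivalence.mk
    { obj := fun D => { carrier := D.carrier, phi := D.phi, isEtale := D.isEtale }
      map := fun f => ⟨f.toLin, f.comm_phi⟩ }
    { obj := PhiModule.withAction p K
      map := fun f => ⟨f.toLin, f.comm, fun _ _ => rfl⟩ }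
    (NatIso.ofComponents (fun D => phiGammaIso (LinearEquiv.refl K D.carrier) (fun _ => rfl)
      fun g x => D.act_eq_self g (fun _ => rfl) x) (fun _ => rfl))
    (NatIso.ofComponents (fun D => Iso.refl D) (fun _ => rfl))

/-- **Katz's theorem**: representations and étale `φ`-modules are anti-equivalent. -/
def katzEquivalence : (FinRep p Γ)ᵒᵖ ≌ PhiModule p K :=
  (phiGammaEquivalence p Γ K S).trans (forgetAction p K)

/-- The rank of the module is the dimension of the representation. -/
theorem finrank_katz (V : FinRep p Γ) :
    finrank K ((katzEquivalence p K).functor.obj (Opposite.op V)).carrier =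
      finrank (ZMod p) V.carrier :=
  finrank_moduleOfRep V

end FA.PhiGamma
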