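import Fermat.Agent.PhiGamma.Datum

/-!
# The solutions of an étale `φ`-module

The maps to a separably closed field that turn `φ` into the `p`-th power form a vector space over
`ZMod p` of the dimension of the module, and they span all the maps.
-/

set_option autoImplicit false
set_option linter.unusedSectionVars false

noncomputable section

open Module Finset

namespace FA.PhiGamma

variable {p : ℕ} [hp : Fact p.Prime] {K L : Type*} [Field K] [Field L] [Algebra K L]
  [Algebra (ZMod p) L] {D : Type*} [AddCommGroup D] [Module K D]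

theorem smulComm_zmod (c : ZMod p) (a : K) (x : L) : a • (c • x) = c • (a • x) := by
  simp only [Algebra.smul_def, mul_left_comm]

instance smulCommClass_zmod : SMulCommClass K (ZMod p) L :=
  ⟨fun a c x => smulComm_zmod c a x⟩

instance smulCommClass_zmod' : SMulCommClass (ZMod p) K L :=
  ⟨fun c a x => (smulComm_zmod c a x).symm⟩

variable (K L) in
/-- The maps to `L` turning `φ` into the `p`-th power. -/
def solutions [CharP L p] (φ : D →+ D) : Submodule (ZMod p) (D →ₗ[K] L) where
  carrier := {f | ∀ x, f (φ x) = f x ^ p}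
  add_mem' {f g} hf hg x := by
    rw [LinearMap.add_apply, LinearMap.add_apply, hf, hg, add_pow_char]
  zero_mem' x := by simp [hp.out.ne_zero]
  smul_mem' c f hf x := by
    rw [LinearMap.smul_apply, LinearMap.smul_apply, hf, Algebra.smul_def, Algebra.smul_def,
      mul_pow, pow_eq_self_zmod]

theorem mem_solutions [CharP L p] {φ : D →+ D} {f : D →ₗ[K] L} :
    f ∈ solutions K L φ ↔ ∀ x, f (φ x) = f x ^ p := Iff.rfl

variable [FiniteDimensional K D] [CharP L p] {φ : D →+ D}

/-- The `p`-linear map on the maps to `L`. -/
def psi (h : IsEtalePhi p K φ) : (D →ₗ[K] L) →+ (D →ₗ[K] L) where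
  toFun f := (h.basisImage (finBasis K D)).constr L fun i => f (finBasis K D i) ^ p
  map_zero' := by
    refine (h.basisImage (finBasis K D)).ext fun i => ?_
    simp [hp.out.ne_zero]
  map_add' f g := by
    refine (h.basisImage (finBasis K D)).ext fun i => ?_
    simp [add_pow_char, Finset.sum_add_distrib]

theorem psi_apply_phi (h : IsEtalePhi p K φ) (f : D →ₗ[K] L) (x : D) :
    psi h f (φ x) = f x ^ p := by
  conv_lhs => rw [← (finBasis K D).sum_repr x, h.map_sum_smul]
  conv_rhs => rw [← (finBasis K D).sum_repr x, map_sum, sum_pow_char p]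
  rw [map_sum]
  refine sum_congr rfl fun i _ => ?_
  rw [map_smul, map_smul, smul_pow, ← h.basisImage_apply]
  exact congrArg _ ((h.basisImage (finBasis K D)).constr_basis L _ i)

theorem psi_eq_iff (h : IsEtalePhi p K φ) {f : D →ₗ[K] L} :
    psi h f = f ↔ f ∈ solutions K L φ := by
  refine ⟨fun e x => ?_, fun hf => ?_⟩
  · conv_lhs => rw [← e]
    exact psi_apply_phi h f x
  · refine (h.basisImage (finBasis K D)).ext fun i => ?_
    rw [h.basisImage_apply, psi_apply_phi, hf]

theorem isEtalePhi_psi (h : IsEtalePhi p K φ) : IsEtalePhi p L (psi (L := L) h) where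
  map_smul a f := by
    refine (h.basisImage (finBasis K D)).ext fun i => ?_
    rw [h.basisImage_apply, psi_apply_phi, LinearMap.smul_apply, LinearMap.smul_apply,
      psi_apply_phi, smul_eq_mul, smul_eq_mul, mul_pow]
  span_range := by
    classical
    rw [eq_top_iff]
    set B := h.basisImage (finBasis K D)
    rintro f -
    have e : f = ∑ i, f (B i) •
        psi h ((finBasis K D).constr L fun j => if j = i then (1 : L) else 0) := by
      refine B.ext fun j => ?_
      simp only [LinearMap.coe_sum, Finset.sum_apply, LinearMap.smul_apply]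
      simp only [B, h.basisImage_apply, psi_apply_phi, Basis.constr_basis]
      simp [ite_pow, hp.out.ne_zero]
    rw [e]
    exact Submodule.sum_mem _ fun i _ =>
      Submodule.smul_mem _ _ (Submodule.subset_span ⟨_, rfl⟩)

theorem span_solutions [IsSepClosed L] (h : IsEtalePhi p K φ) :
    Submodule.span L (solutions K L φ : Set (D →ₗ[K] L)) = ⊤ := by
  rw [← (isEtalePhi_psi (L := L) h).span_fixed_eq_top]
  congr 1
  exact Set.ext fun f => (psi_eq_iff h).symm

/-- **The solutions form a space of the dimension of the module.** -/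
theorem exists_solution_basis [IsSepClosed L] (h : IsEtalePhi p K φ) :
    ∃ b : Basis (Fin (finrank K D)) L (D →ₗ[K] L), (∀ i, b i ∈ solutions K L φ) ∧
      ∀ f, f ∈ solutions K L φ ↔
        ∃ c : Fin (finrank K D) → ZMod p, f = ∑ i, algebraMap (ZMod p) L (c i) • b i := by
  have hfr : finrank L (D →ₗ[K] L) = finrank K D := Module.finrank_linearMap_self K L D
  obtain ⟨b₀, hb₀⟩ := exists_basis_in (span_solutions (L := L) h)
  set b := b₀.reindex (finCongr hfr)
  have hb : ∀ i, b i ∈ solutions K L φ := fun i => by
    rw [Basis.reindex_apply]; exact hb₀ _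
  refine ⟨b, hb, fun f => ⟨fun hf => ?_, ?_⟩⟩
  · have e : ∀ i, b.repr f i ^ p = b.repr f i := fun i => by
      have h1 : ∑ i, b.repr f i ^ p • b i = f := by
        conv_rhs => rw [← (psi_eq_iff h).2 hf, ← b.sum_repr f,
          (isEtalePhi_psi h).map_sum_smul]
        exact sum_congr rfl fun i _ => by rw [(psi_eq_iff h).2 (hb i)]
      have h2 := congrArg (fun g => b.repr g i) h1
      simpa [Basis.repr_self, Finsupp.single_apply] using h2
    choose c hc using fun i => exists_zmod_of_pow_eq (e i)
    exact ⟨c, by simp only [hc]; exact (b.sum_repr f).symm⟩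
  · rintro ⟨c, rfl⟩
    refine sum_mem fun i _ => ?_
    rw [algebraMap_smul]
    exact Submodule.smul_mem _ _ (hb i)

/-- The dimension of the solutions. -/
theorem finrank_solutions [IsSepClosed L] (h : IsEtalePhi p K φ) :
    finrank (ZMod p) (solutions K L φ) = finrank K D := by
  obtain ⟨b, hb, hiff⟩ := exists_solution_basis (L := L) h
  have hli : LinearIndependent (ZMod p) (fun i => (⟨b i, hb i⟩ : solutions K L φ)) :=
    LinearIndependent.of_comp (solutions K L φ).subtype
      (b.linearIndependent.restrict_scalars' (ZMod p))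
  have hspan : ⊤ ≤
      Submodule.span (ZMod p) (Set.range fun i => (⟨b i, hb i⟩ : solutions K L φ)) := by
    rintro ⟨f, hf⟩ -
    obtain ⟨c, rfl⟩ := (hiff f).1 hf
    refine (Submodule.mem_span_range_iff_exists_fun _).2 ⟨c, Subtype.ext ?_⟩
    simp [algebraMap_smul]
  rw [finrank_eq_card_basis (Basis.mk hli hspan), Fintype.card_fin]

theorem finite_solutions [IsSepClosed L] (h : IsEtalePhi p K φ) :
    Finite (solutions K L φ) := by
  obtain ⟨b, hb, hiff⟩ := exists_solution_basis (L := L) h
  refine Finite.of_surjective (α := Fin (finrank K D) → ZMod p)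
    (fun c => ⟨∑ i, algebraMap (ZMod p) L (c i) • b i, (hiff _).2 ⟨c, rfl⟩⟩) ?_
  rintro ⟨f, hf⟩
  obtain ⟨c, hc⟩ := (hiff f).1 hf
  exact ⟨c, Subtype.ext hc.symm⟩

/-- The solutions separate the points. -/
theorem eq_zero_of_solutions [IsSepClosed L] (h : IsEtalePhi p K φ) {x : D}
    (hx : ∀ f ∈ solutions K L φ, f x = 0) : x = 0 := by
  refine (finBasis K D).forall_coord_eq_zero_iff.1 fun i => ?_
  have hmem : (Algebra.linearMap K L).comp ((finBasis K D).coord i) ∈
      Submodule.span L (solutions K L φ : Set (D →ₗ[K] L)) :=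
    span_solutions (L := L) h ▸ Submodule.mem_top
  have h0 : ∀ g ∈ Submodule.span L (solutions K L φ : Set (D →ₗ[K] L)), g x = 0 :=
      fun g hg => by
    induction hg using Submodule.span_induction with
    | mem f hf => exact hx f hf
    | zero => rfl
    | add f g _ _ hf hg => rw [LinearMap.add_apply, hf, hg, add_zero]
    | smul a f _ hf => rw [LinearMap.smul_apply, hf, smul_zero]
  exact (algebraMap K L).injective ((h0 _ hmem).trans (map_zero _).symm)

end FA.PhiGamma
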