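import Fermat.Agent.FontaineWintenberger.Main

/-!
# The action of the Galois group of `ℚ_p` on the Laurent series in the tilt

The group acts on the tilt continuously and maps the Laurent series field, its algebraic closure
and its separable closure to themselves.
-/

set_option autoImplicit false
set_option linter.unusedSectionVars false

noncomputable section

open Filter FA.TateSen FA.FontaineWintenberger Polynomial
open scoped Topology

namespace FA.PhiGamma

variable {p : ℕ} [hp : Fact p.Prime]

local notation "C" => ℂ_[p]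
local notation "Ω" => PadicAlgCl p
local notation "G" => PadicAlgCl p ≃ₐ[ℚ_[p]] PadicAlgCl p

instance flatAction : MulSemiringAction G (Flat p) where
  smul σ x := flatGal σ x
  one_smul := flatGal_one
  mul_smul := flatGal_mul
  smul_zero σ := map_zero (flatGal σ)
  smul_add σ := map_add (flatGal σ)
  smul_one σ := map_one (flatGal σ)
  smul_mul σ := map_mul (flatGal σ)

theorem flat_smul_def (σ : G) (x : Flat p) : σ • x = flatGal σ x := rfl

theorem continuous_orbit_integral {x : Flat p} (hx : ‖x‖ ≤ 1) :
    Continuous fun σ : G => flatGal σ x := by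
  rw [continuous_iff_continuousAt]
  intro σ₀
  rw [ContinuousAt, Metric.tendsto_nhds]
  intro ε hε
  obtain ⟨n, hn⟩ := ((tendsto_p_pow_pow (p := p)).eventually (gt_mem_nhds hε)).exists
  have hp0 : 0 < ‖(p : C)‖ := norm_pos_iff.2 (Nat.cast_ne_zero.2 hp.out.ne_zero)
  filter_upwards [Metric.tendsto_nhds.1 ((continuous_gal_apply (x.seq n)).tendsto σ₀) _ hp0]
    with σ hσ
  rw [dist_eq_norm] at hσ ⊢
  refine lt_of_le_of_lt ((norm_sub_le_iff ((norm_flatGal σ x).trans_le hx)
    ((norm_flatGal σ₀ x).trans_le hx) n).2 ?_) hn
  rw [flatGal_seq, flatGal_seq]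
  exact hσ.le

theorem continuous_orbit (x : Flat p) : Continuous fun σ : G => flatGal σ x := by
  obtain ⟨k, hk⟩ := exists_scale x
  have e : (fun σ : G => flatGal σ x) = fun σ =>
      (flatGal σ (tee p ^ k))⁻¹ * flatGal σ (tee p ^ k * x) := funext fun σ => by
    rw [map_mul, inv_mul_cancel_left₀]
    exact (_root_.map_ne_zero _).2 (pow_ne_zero _ tee_ne_zero)
  rw [e]
  refine ((continuous_orbit_integral ?_).inv₀ fun σ =>
    (_root_.map_ne_zero _).2 (pow_ne_zero _ tee_ne_zero)).mul (continuous_orbit_integral hk)
  rw [norm_pow]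
  exact pow_le_one₀ (norm_nonneg _) norm_tee_le

instance continuousSMul_flat : ContinuousSMul G (Flat p) := by
  refine ⟨continuous_iff_continuousAt.2 fun ⟨σ₀, x₀⟩ => ?_⟩
  rw [ContinuousAt, Metric.tendsto_nhds]
  intro ε hε
  have h1 := Metric.tendsto_nhds.1 (((continuous_orbit x₀).comp continuous_fst).tendsto (σ₀, x₀))
    ε hε
  have h2 := Metric.tendsto_nhds.1 ((continuous_snd (X := G) (Y := Flat p)).tendsto (σ₀, x₀)) ε hε
  filter_upwards [h1, h2] with ⟨σ, x⟩ hσ hx
  rw [dist_eq_norm] at hσ hx ⊢
  change ‖flatGal σ x - flatGal σ₀ x₀‖ < ε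
  rw [show flatGal σ x - flatGal σ₀ x₀ =
    flatGal σ (x - x₀) + (flatGal σ x₀ - flatGal σ₀ x₀) by rw [map_sub]; ring]
  refine (IsUltrametricDist.norm_add_le_max _ _).trans_lt (max_lt ?_ hσ)
  rw [norm_flatGal]
  exact hx

/-- The image of `ε` is given by the cyclotomic character. -/
theorem flatGal_eps_seq (σ : G) (n : ℕ) : (flatGal σ (eps p)).seq n =
    ((zetaSeq p n ^ ((chi p σ : ℤ_[p]).toZModPow n).val : Ω) : C) := by
  rw [flatGal_seq, eps_seq, gal_coe, apply_root σ (zetaSeq_primitive n).pow_eq_one]

theorem eps_eq : eps p = tee p + 1 := (sub_add_cancel _ _).symm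

theorem eps_mem : eps p ∈ baseField p := eps_eq (p := p) ▸ add_mem tee_mem (one_mem _)

theorem flatGal_eps_mem (σ : G) : flatGal σ (eps p) ∈ baseField p := by
  refine isClosed_baseField.closure_subset (mem_closure_of_modEqP
    ((norm_flatGal σ _).trans_le norm_eps.le) fun n =>
      ⟨eps p ^ ((chi p σ : ℤ_[p]).toZModPow n).val, pow_mem eps_mem _, ?_, ?_⟩)
  · rw [norm_pow, norm_eps, one_pow]
  · rw [flatGal_eps_seq, seq_pow_nat, eps_seq, PadicComplex.coe_eq, PadicComplex.coe_eq, map_pow]
    exact modEqP_refl _

theorem flatGal_mem_base (σ : G) {x : Flat p} (hx : x ∈ baseField p) :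
    flatGal σ x ∈ baseField p := by
  have ht : flatGal σ (tee p) ∈ baseField p := by
    rw [tee, map_sub, map_one]
    exact sub_mem (flatGal_eps_mem σ) (one_mem _)
  have hpw : ∀ f, flatGal σ (powerHom p f) ∈ baseField p := fun f => by
    have h1 := (summable_serTerm (p := p) fun i => PowerSeries.coeff i f).hasSum.map
      (flatGal σ) (isometry_flatGal σ).continuous
    refine isClosed_baseField.mem_of_tendsto h1 (Eventually.of_forall fun s => ?_)
    refine sum_mem fun i _ => ?_
    rw [Function.comp_apply, serTerm, map_mul, map_pow,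
      show flatGal σ (primeHom p (PowerSeries.coeff i f)) = primeHom p (PowerSeries.coeff i f) from
        RingHom.congr_fun (Subsingleton.elim ((flatGal σ).comp (primeHom p)) (primeHom p)) _]
    refine mul_mem ?_ (pow_mem ht i)
    rw [show primeHom p (PowerSeries.coeff i f) =
      (baseField p).subtype (ZMod.castHom dvd_rfl (baseField p) (PowerSeries.coeff i f)) from
        RingHom.congr_fun (Subsingleton.elim (primeHom p)
          ((baseField p).subtype.comp (ZMod.castHom dvd_rfl (baseField p)))) _]
    exact SetLike.coe_mem _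
  obtain ⟨f, g, -, rfl⟩ := exists_div_eq hx
  rw [map_div₀]
  exact div_mem (hpw f) (hpw g)

/-- The elements fixing the Laurent series are those of the cyclotomic tower. -/
theorem fix_base_iff (σ : G) :
    (∀ x ∈ baseField p, flatGal σ x = x) ↔ σ ∈ (cycInf p).fixingSubgroup := by
  refine ⟨fun h => ?_, fun h x hx => flatGal_baseField h hx⟩
  rw [mem_fix_cycInf_iff]
  refine Units.ext (PadicInt.ext_of_toZModPow.1 fun n => ?_)
  have h1 := congrArg (fun y : Flat p => y.seq n) (h _ eps_mem)
  simp only [flatGal_seq, eps_seq, gal_coe] at h1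
  have h2 := UniformSpace.Completion.coe_injective Ω h1
  rw [toZModPow_eq_of_root σ (zetaSeq_primitive n) (h2.trans (pow_one _).symm), Units.val_one,
    map_one, Nat.cast_one]

instance baseAction : MulSemiringAction G (baseField p) where
  smul σ x := ⟨flatGal σ x, flatGal_mem_base σ x.2⟩
  one_smul x := Subtype.ext (flatGal_one (x : Flat p))
  mul_smul σ τ x := Subtype.ext (flatGal_mul σ τ (x : Flat p))
  smul_zero σ := Subtype.ext (map_zero (flatGal σ))
  smul_add σ x y := Subtype.ext (map_add (flatGal σ) (x : Flat p) y)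
  smul_one σ := Subtype.ext (map_one (flatGal σ))
  smul_mul σ x y := Subtype.ext (map_mul (flatGal σ) (x : Flat p) y)

theorem coe_base_smul (σ : G) (x : baseField p) :
    ((σ • x : baseField p) : Flat p) = flatGal σ x := rfl

variable (p) in
/-- The restriction to the base. -/
def baseHom (σ : G) : baseField p →+* baseField p :=
  MulSemiringAction.toRingHom G (baseField p) σ

theorem aeval_map_baseHom (σ : G) (P : (baseField p)[X]) (x : Flat p) :
    aeval (flatGal σ x) (P.map (baseHom p σ)) = flatGal σ (aeval x P) := by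
  rw [aeval_def, eval₂_map, aeval_def, hom_eval₂]
  rfl

theorem flatGal_mem_alg (σ : G) {x : Flat p} (hx : x ∈ algField p) :
    flatGal σ x ∈ algField p := by
  have hint : IsIntegral (baseField p) x := hx
  refine mem_algebraicClosure_iff'.2
    ⟨(minpoly (baseField p) x).map (baseHom p σ), (minpoly.monic hint).map _, ?_⟩
  rw [← aeval_def, aeval_map_baseHom, minpoly.aeval, map_zero]

instance algAction : MulSemiringAction G (algField p) where
  smul σ x := ⟨flatGal σ x, flatGal_mem_alg σ x.2⟩
  one_smul x := Subtype.ext (flatGal_one (x : Flat p))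
  mul_smul σ τ x := Subtype.ext (flatGal_mul σ τ (x : Flat p))
  smul_zero σ := Subtype.ext (map_zero (flatGal σ))
  smul_add σ x y := Subtype.ext (map_add (flatGal σ) (x : Flat p) y)
  smul_one σ := Subtype.ext (map_one (flatGal σ))
  smul_mul σ x y := Subtype.ext (map_mul (flatGal σ) (x : Flat p) y)

theorem coe_alg_smul (σ : G) (x : algField p) :
    ((σ • x : algField p) : Flat p) = flatGal σ x := rfl

variable (p) in
/-- The separable closure of the Laurent series in the tilt. -/
abbrev sepField : IntermediateField (baseField p) (algField p) :=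
  separableClosure (baseField p) (algField p)

theorem smul_mem_sep (σ : G) {x : algField p} (hx : x ∈ sepField p) : σ • x ∈ sepField p := by
  have hsep : IsSeparable (baseField p) x := hx
  have h0 : aeval (σ • x) ((minpoly (baseField p) x).map (baseHom p σ)) = 0 := by
    refine Subtype.ext ((aeval_algHom_apply (algField p).val (σ • x)
      ((minpoly (baseField p) x).map (baseHom p σ))).symm.trans ?_)
    change aeval (flatGal σ (x : Flat p)) _ = 0
    rw [aeval_map_baseHom, show aeval (x : Flat p) (minpoly (baseField p) x) = 0 from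
      (aeval_algHom_apply (algField p).val x _).trans (by rw [minpoly.aeval, map_zero]), map_zero]
  exact (Separable.map (f := baseHom p σ) hsep).of_dvd (minpoly.dvd _ _ h0)

instance sepAction : MulSemiringAction G (sepField p) where
  smul σ x := ⟨σ • (x : algField p), smul_mem_sep σ x.2⟩
  one_smul x := Subtype.ext (one_smul G (x : algField p))
  mul_smul σ τ x := Subtype.ext (mul_smul σ τ (x : algField p))
  smul_zero σ := Subtype.ext (smul_zero σ)
  smul_add σ x y := Subtype.ext (smul_add σ (x : algField p) y)
  smul_one σ := Subtype.ext (smul_one σ)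
  smul_mul σ x y := Subtype.ext (smul_mul' σ (x : algField p) y)

theorem coe_sep_smul (σ : G) (x : sepField p) :
    (((σ • x : sepField p) : algField p) : Flat p) = flatGal σ ((x : algField p) : Flat p) := rfl

end FA.PhiGamma
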